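import Fermat.Agent.S55.DIC.Image
import Fermat.Agent.S55.LDB.Defs
import Fermat.Agent.S55.INEQ.Defs

/-!
# S55-DIC / NB (norm bridge) : definitions

Bridge between INEQ (completion free, abstract local norm groups `𝒩 w ≤ Fˣ`) and the On-style
language of LDB / BRG (`IsNm U χ b`, `G = G_ℚ` or `Gal(Ω_q/ℚ_q)`).

Place of `F` = pair `(q, γ)`: group hom `locHom q γ h = γ r(h) γ⁻¹`, embedding
`locEmb q γ x = ι (γ⁻¹ x)` (same conventions as `SREF/Defs.lean`); the induced finite place of `F`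
is `placeOf q (embOf q F γ⁻¹)`.
-/

set_option autoImplicit false

open NumberField IsDedekindDomain
open Fermat.Agent.S55.LDB

namespace Fermat.Agent.S55.DIC.NB

section loc
variable (q : ℕ) [Fact q.Prime]

/-- `h ↦ γ r(h) γ⁻¹`. -/
noncomputable def locHom (γ : GQ) : Gq q →* GQ :=
  (MulAut.conj γ).toMonoidHom.comp (localGaloisToGlobal q)

/-- `x ↦ ι (γ⁻¹ x)`. -/
noncomputable def locEmb (γ : GQ) : Qb →+* PadicAlgCl q :=
  (padicEmbedding q).toRingHom.comp ((γ⁻¹ : GQ) : Qb →+* Qb)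

/-- `locEmb` on units. -/
noncomputable def locEmbU (γ : GQ) : Qbˣ →* (PadicAlgCl q)ˣ :=
  Units.map (locEmb q γ : Qb →* PadicAlgCl q)

/-- **local norm condition at the place `(q, γ)`**: the character `χ` of `U = G_F` is trivial on the
decomposition group, or `b` is a norm for the restricted character. -/
def LocNm {n : ℕ} (γ : GQ) (U : Subgroup GQ) (χ : GQ → ZMod n) (b : Qbˣ) : Prop :=
  (∀ h ∈ U.comap (locHom q γ), χ (locHom q γ h) = 0) ∨
    IsNm (U.comap (locHom q γ)) (fun h => χ (locHom q γ h)) (locEmbU q γ b)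

end loc

/-- the inclusion `Fˣ → ℚ̄ˣ`. -/
noncomputable def toQb (F : IntermediateField ℚ Qb) : Fˣ →* Qbˣ :=
  Units.map (algebraMap F Qb : F →* Qb)

/-- a cyclic extension `E' / F` of degree `p` together with a character `χ` of `G_F` cutting it out. -/
structure Setup {p : ℕ} (F : IntermediateField ℚ Qb) (E' : IntermediateField F Qb)
    (χ : GQ → ZMod p) : Prop where
  hom : HomOn F.fixingSubgroup χ
  ker : ∀ g ∈ F.fixingSubgroup, χ g = 0 ↔ ∀ x ∈ E', g x = x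
  surj : ∃ σ ∈ F.fixingSubgroup, χ σ = 1

/-- the restriction of `locEmb q γ` to `E'`. -/
noncomputable def embE (q : ℕ) [Fact q.Prime] {F : IntermediateField ℚ Qb}
    (E' : IntermediateField F Qb) (γ : GQ) : E' →+* PadicAlgCl q :=
  (locEmb q γ).comp (algebraMap E' Qb)

/-- the TRUE local norm group at `w`, as a set. -/
def locNormSet {p : ℕ} (F : IntermediateField ℚ Qb) [NumberField F] (χ : GQ → ZMod p)
    (w : HeightOneSpectrum (𝓞 F)) : Set Fˣ :=
  {b | ∀ (q : ℕ) [Fact q.Prime] (γ : GQ), placeOf q (embOf q F γ⁻¹) = w →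
    LocNm q γ F.fixingSubgroup χ (toQb F b)}

/-- INPUT FROM LOC (1): the norm index of a cyclic extension of degree `p` of local fields is `> 1`. -/
def LocIdxHyp (p : ℕ) : Prop :=
  ∀ (q : ℕ) [Fact q.Prime] (K K' : IntermediateField ℚ_[q] (PadicAlgCl q)),
    FiniteDimensional ℚ_[q] K → FiniteDimensional ℚ_[q] K' → K ≤ K' →
    ∀ ψ : Gq q → ZMod p, HomOn K.fixingSubgroup ψ →
      (∀ g ∈ K.fixingSubgroup, ψ g = 0 ↔ g ∈ K'.fixingSubgroup) →
      (∃ σ ∈ K.fixingSubgroup, ψ σ = 1) →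
      ∃ b : (PadicAlgCl q)ˣ, Fix K.fixingSubgroup b ∧ ¬ IsNm K.fixingSubgroup ψ b

/-- INPUT FROM LOC (2): units are norms from unramified cyclic extensions of degree `p`. -/
def LocUnrHyp (p : ℕ) : Prop :=
  ∀ (q : ℕ) [Fact q.Prime] (K K' : IntermediateField ℚ_[q] (PadicAlgCl q)),
    FiniteDimensional ℚ_[q] K → FiniteDimensional ℚ_[q] K' → K ≤ K' →
    ∀ ψ : Gq q → ZMod p, HomOn K.fixingSubgroup ψ →
      (∀ g ∈ K.fixingSubgroup, ψ g = 0 ↔ g ∈ K'.fixingSubgroup) →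
      (∃ σ ∈ K.fixingSubgroup, ψ σ = 1) →
      (∀ y ∈ K', y ≠ 0 → ∃ x ∈ K, ‖y‖ = ‖x‖) →
      ∀ b : (PadicAlgCl q)ˣ, (b : PadicAlgCl q) ∈ K → ‖(b : PadicAlgCl q)‖ = 1 →
        IsNm K.fixingSubgroup ψ b

end Fermat.Agent.S55.DIC.NB
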