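import Fermat.Agent.S55.DIC.NB.Formal
import Fermat.Agent.S55.DIC.NB.Defs
import Fermat.Agent.S55.LOC.Amb.Formation
import Fermat.Agent.S55.LDB.Export

/-!
# S55-DIC / NB : the two local inputs `LocIdxHyp`, `LocUnrHyp` from `LOC.localFormation`
-/

set_option autoImplicit false

open Fermat.Agent.S55.LDB Fermat.Agent.S55.LOC

namespace Fermat.Agent.S55.DIC.NB

variable {p : ℕ} [Fact p.Prime]

section aux
variable {q : ℕ} [Fact q.Prime]

theorem fromLOC_isChar {K K' : IntermediateField ℚ_[q] (PadicAlgCl q)}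
    (hK' : FiniteDimensional ℚ_[q] K') (hle : K ≤ K') {ψ : DIC.Gq q → ZMod p}
    (hψ : HomOn K.fixingSubgroup ψ)
    (hker : ∀ g ∈ K.fixingSubgroup, ψ g = 0 ↔ g ∈ K'.fixingSubgroup) :
    IsChar (locOpens q) K.fixingSubgroup ψ := by
  have hVU : K'.fixingSubgroup ≤ K.fixingSubgroup := IntermediateField.fixingSubgroup_antitone hle
  refine ⟨hψ, K'.fixingSubgroup, ⟨K', hK', le_rfl⟩, hVU, fun g hg s hs => ?_⟩
  rw [hψ g hg s (hVU hs), (hker s (hVU hs)).2 hs, add_zero]

theorem fromLOC_fixF (K : IntermediateField ℚ_[q] (PadicAlgCl q)) :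
    fixF K.fixingSubgroup = K :=
  InfiniteGalois.fixedField_fixingSubgroup K

theorem fromLOC_relIndex {G : Type*} [Group G] {U V : Subgroup G} {ψ : G → ZMod p}
    (hψ : HomOn U ψ) (hker : ∀ g ∈ U, ψ g = 0 ↔ g ∈ V)
    (hsurj : ∃ σ ∈ U, ψ σ = 1) : V.relIndex U = p := by
  let φ : U →* Multiplicative (ZMod p) :=
    { toFun := fun g => Multiplicative.ofAdd (ψ g)
      map_one' := by
        have h1 : ψ (1 : G) = 0 := (hker 1 U.one_mem).2 V.one_mem
        simp [h1]
      map_mul' := fun a b => by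
        simp only [Subgroup.coe_mul]
        rw [hψ a a.2 b b.2, ofAdd_add] }
  have hkerφ : φ.ker = V.subgroupOf U := by
    ext g
    rw [MonoidHom.mem_ker, Subgroup.mem_subgroupOf]
    change Multiplicative.ofAdd (ψ g) = 1 ↔ _
    rw [ofAdd_eq_one]
    exact hker g g.2
  have hrange : φ.range = ⊤ := by
    obtain ⟨σ, hσ, h1⟩ := hsurj
    rw [eq_top_iff]
    intro x _
    refine ⟨(⟨σ, hσ⟩ : U) ^ (Multiplicative.toAdd x).val, ?_⟩
    rw [map_pow]
    change (Multiplicative.ofAdd (ψ σ)) ^ _ = x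
    rw [h1, ← ofAdd_nsmul]
    simp
  rw [Subgroup.relIndex, ← hkerφ, Subgroup.index_ker, hrange]
  simp [Nat.card_eq_fintype_card, ZMod.card]

end aux

/-- the local norm index is `> 1`. -/
theorem locIdxHyp
    (FF : ∀ (q : ℕ) [Fact q.Prime], FieldFormation p (locOpens q) (PadicAlgCl q)ˣ) :
    LocIdxHyp p := by
  intro q _ K K' hK hK' hle ψ hψ hker hsurj
  exact (localFormation p (FF q)).idx_ne K.fixingSubgroup ⟨K, hK, le_rfl⟩ ψ
    (fromLOC_isChar hK' hle hψ hker) hsurj

/-- units are norms from unramified extensions of degree `p`. -/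
theorem locUnrHyp
    (FF : ∀ (q : ℕ) [Fact q.Prime], FieldFormation p (locOpens q) (PadicAlgCl q)ˣ) :
    LocUnrHyp p := by
  intro q _ K K' hK hK' hle ψ hψ hker hsurj hval b hbK hb1
  have hp0 : p ≠ 0 := (Fact.out : p.Prime).ne_zero
  set U := K.fixingSubgroup with hUdef
  set V := K'.fixingSubgroup with hVdef
  have hU : IsOpenSub q U := ⟨K, hK, le_rfl⟩
  have hV : IsOpenSub q V := ⟨K', hK', le_rfl⟩
  have hVU : V ≤ U := IntermediateField.fixingSubgroup_antitone hle
  obtain ⟨e, f, hef, hord, hnr⟩ := ef_U U V hU hV hVU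
  rw [fromLOC_relIndex hψ hker hsurj] at hef
  -- a uniformiser of `K` is a uniformiser of `K'`
  obtain ⟨π, hπ⟩ := exists_isUnif K
  have hπ' : IsUnif K' π := by
    refine ⟨hle hπ.1, hπ.2.1, hπ.2.2.1, fun x hx hx1 => ?_⟩
    by_cases hx0 : x = 0
    · simp [hx0]
    · obtain ⟨x₀, hx₀, hn⟩ := hval x hx hx0
      rw [hn] at hx1 ⊢
      exact hπ.2.2.2 x₀ hx₀ hx1
  have he : e = 1 := by
    have h1 := hord (Units.mk0 π hπ.2.1) (fix_iff.2 (by rw [hUdef, fromLOC_fixF]; exact hπ.1))
    simp only [ordU, Units.val_mk0] at h1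
    rw [hUdef, hVdef, fromLOC_fixF, fromLOC_fixF, ordF_unif hπ, ordF_unif hπ'] at h1
    exact_mod_cast (by simpa using h1.symm : (e : ℤ) = 1)
  have hf : f = p := by rw [he, one_mul] at hef; exact hef
  -- the two characters have the same kernel
  have hnrchar := nrU_char U hU p hp0
  have hV0 : ∀ g ∈ V, nrU U p g = 0 := by
    intro g hg
    rw [hnr p hp0 g hg, hf]
    simp
  have hkers : ∀ g ∈ U, nrU U p g = 0 ↔ ψ g = 0 := by
    intro g hg
    constructor
    · intro h0
      by_contra hne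
      obtain ⟨σ, hσ, hσ1⟩ := nrU_surj U hU p hp0
      -- `σ = g^k v`
      have hpow : ∀ k : ℕ, g ^ k ∈ U ∧ ψ (g ^ k) = k * ψ g ∧ nrU U p (g ^ k) = 0 := by
        intro k
        induction k with
        | zero =>
          refine ⟨by simp [U.one_mem], ?_, ?_⟩
          · simp only [pow_zero, Nat.cast_zero, zero_mul]
            exact (hker 1 U.one_mem).2 V.one_mem
          · simp only [pow_zero]
            exact hV0 1 V.one_mem
        | succ k ih =>
          refine ⟨U.pow_mem hg _, ?_, ?_⟩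
          · rw [pow_succ, hψ _ ih.1 g hg, ih.2.1]; push_cast; ring
          · rw [pow_succ, hnrchar.hom _ ih.1 g hg, ih.2.2, h0, add_zero]
      set k : ℕ := (ψ σ * (ψ g)⁻¹).val with hk
      have hkc : (k : ZMod p) = ψ σ * (ψ g)⁻¹ := by rw [hk]; simp
      obtain ⟨hgk, hψk, hnk⟩ := hpow k
      have hinvU : (g ^ k)⁻¹ * σ ∈ U := U.mul_mem (U.inv_mem hgk) hσ
      have hsplit : σ = g ^ k * ((g ^ k)⁻¹ * σ) := by group
      have hψv : ψ ((g ^ k)⁻¹ * σ) = 0 := by
        have h1 := hψ (g ^ k) hgk _ hinvU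
        rw [← hsplit, hψk, hkc, mul_assoc, inv_mul_cancel₀ hne, mul_one] at h1
        exact (add_eq_left.mp h1.symm)
      have h2 := hnrchar.hom (g ^ k) hgk _ hinvU
      rw [← hsplit, hσ1, hnk, hV0 _ ((hker _ hinvU).1 hψv), add_zero] at h2
      exact one_ne_zero h2
    · intro h0
      exact hV0 g ((hker g hg).1 h0)
  -- `b` is a norm for the unramified character
  have hbfix : Fix U b := fix_iff.2 (by rw [hUdef, fromLOC_fixF]; exact hbK)
  have hordb : ordU U b = 0 := by
    simp only [ordU]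
    rw [hUdef, fromLOC_fixF]
    exact ordF_eq hπ (by rw [hb1, zpow_zero])
  have hnm : IsNm U (nrU U p) b := by
    have h := (localFormation p (FF q)).norm_nr U hU 1 b hbfix
    rw [pow_one] at h
    exact h.2 (by
      change (p : ℤ) ∣ ordU U b
      rw [hordb]; exact dvd_zero _)
  exact IsNm.congr_ker hnrchar.hom hψ hkers hsurj hnm

variable (p) in
/-- **unconditional** : the local norm index is `> 1`. -/
theorem locIdxHyp_holds : LocIdxHyp p :=
  locIdxHyp (fun q _ => krullFF p (zetaQ q p) (zetaQ_spec q p))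

variable (p) in
/-- **unconditional** : units are norms from unramified extensions of degree `p`. -/
theorem locUnrHyp_holds : LocUnrHyp p :=
  locUnrHyp (fun q _ => krullFF p (zetaQ q p) (zetaQ_spec q p))

end Fermat.Agent.S55.DIC.NB
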