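import Fermat.Agent.S55.DIC.NB.Main
import Fermat.Agent.S55.DIC.NB.FromLOC

/-!
# S55-DIC / NB : unconditional exports (HNT) and (EX) in On-style
-/

set_option autoImplicit false

open NumberField IsDedekindDomain
open Fermat.Agent.S55.LDB

namespace Fermat.Agent.S55.DIC.NB

variable {p : ℕ} [Fact p.Prime]

/-- **Hasse norm theorem, On-style, unconditional.** -/
theorem hnt (hp2 : p ≠ 2)
    (F E : IntermediateField ℚ Qb) [FiniteDimensional ℚ F] [FiniteDimensional ℚ E] (hFE : F ≤ E)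
    (ζ : Qb) (hζ : IsPrimitiveRoot ζ p) (hζF : ζ ∈ F)
    (χ : GQ → ZMod p) (hχ : HomOn F.fixingSubgroup χ)
    (hker : ∀ g ∈ F.fixingSubgroup, χ g = 0 ↔ g ∈ E.fixingSubgroup)
    (hsurj : ∃ σ ∈ F.fixingSubgroup, χ σ = 1)
    (b : Qbˣ) (hb : (b : Qb) ∈ F)
    (hloc : ∀ (q : ℕ) [Fact q.Prime] (γ : GQ), LocNm q γ F.fixingSubgroup χ b) :
    IsNm F.fixingSubgroup χ b :=
  hnt_on hp2 (locIdxHyp_holds p) F E hFE ζ hζ hζF χ hχ hker hsurj b hb hloc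

/-- **(EX), On-style, unconditional.** -/
theorem ex (hp2 : p ≠ 2)
    (F E : IntermediateField ℚ Qb) [NumberField F] [FiniteDimensional ℚ E] (hFE : F ≤ E)
    (ζ : Qb) (hζ : IsPrimitiveRoot ζ p) (hζF : ζ ∈ F)
    (χ : GQ → ZMod p) (hχ : HomOn F.fixingSubgroup χ)
    (hker : ∀ g ∈ F.fixingSubgroup, χ g = 0 ↔ g ∈ E.fixingSubgroup)
    (q₁ : ℕ) [Fact q₁.Prime] (γ₁ : GQ) (q₂ : ℕ) [Fact q₂.Prime] (γ₂ : GQ)
    (hne : placeOf q₁ (embOf q₁ F γ₁⁻¹) ≠ placeOf q₂ (embOf q₂ F γ₂⁻¹))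
    (h₁ : ∃ h ∈ F.fixingSubgroup.comap (locHom q₁ γ₁), χ (locHom q₁ γ₁ h) ≠ 0)
    (h₂ : ∃ h ∈ F.fixingSubgroup.comap (locHom q₂ γ₂), χ (locHom q₂ γ₂ h) ≠ 0) :
    ∃ b : Qbˣ, (b : Qb) ∈ F ∧
      (∀ (q : ℕ) [Fact q.Prime] (γ : GQ),
        placeOf q (embOf q F γ⁻¹) ≠ placeOf q₁ (embOf q₁ F γ₁⁻¹) →
        placeOf q (embOf q F γ⁻¹) ≠ placeOf q₂ (embOf q₂ F γ₂⁻¹) →
        LocNm q γ F.fixingSubgroup χ b) ∧
      ¬ (LocNm q₁ γ₁ F.fixingSubgroup χ b ∧ LocNm q₂ γ₂ F.fixingSubgroup χ b) :=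
  ex_on hp2 (locIdxHyp_holds p) (locUnrHyp_holds p) F E hFE ζ hζ hζF χ hχ hker q₁ γ₁ q₂ γ₂ hne h₁ h₂

end Fermat.Agent.S55.DIC.NB
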