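import Fermat.Agent.S55.LDB.Defs

/-!
# S55-DIC / NB : formal properties of `IsNm U χ b` (pure group theory, imports only LDB/Defs)
-/

set_option autoImplicit false
set_option linter.unusedSectionVars false

open Fermat.Agent.S55.LDB

namespace Fermat.Agent.S55.DIC.NB

variable {G : Type*} [Group G] {A : Type*} [CommGroup A] [MulDistribMulAction G A]
variable {n : ℕ} [NeZero n] {U : Subgroup G} {χ : G → ZMod n}

omit [NeZero n] in
theorem Formal_map_one (hχ : HomOn U χ) : χ 1 = 0 := by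
  have := hχ 1 U.one_mem 1 U.one_mem
  rw [mul_one] at this
  exact add_eq_left.mp this.symm

omit [NeZero n] in
theorem Formal_map_inv (hχ : HomOn U χ) {g : G} (hg : g ∈ U) : χ g⁻¹ = - χ g := by
  have := hχ g hg g⁻¹ (U.inv_mem hg)
  rw [mul_inv_cancel, Formal_map_one hχ] at this
  exact (neg_eq_of_add_eq_zero_right this.symm).symm

omit [NeZero n] in
theorem Formal_map_pow (hχ : HomOn U χ) {g : G} (hg : g ∈ U) (k : ℕ) : χ (g ^ k) = k * χ g := by
  induction k with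
  | zero => simp [Formal_map_one hχ]
  | succ k ih =>
    rw [pow_succ, hχ _ (U.pow_mem hg k) _ hg, ih]
    push_cast
    ring

/-- `σ^i • x` only depends on `χ (σ^i) = i χ σ` when `x` is fixed by the kernel. -/
theorem smul_eq_of_char_eq (hχ : HomOn U χ) {g g' : G} (hg : g ∈ U) (hg' : g' ∈ U)
    (h : χ g = χ g') {x : A} (hx : ∀ k ∈ U, χ k = 0 → k • x = x) : g • x = g' • x := by
  have h1 : (g'⁻¹ * g) • x = x := by
    refine hx _ (U.mul_mem (U.inv_mem hg') hg) ?_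
    rw [hχ _ (U.inv_mem hg') _ hg, Formal_map_inv hχ hg', h, neg_add_cancel]
  calc g • x = (g' * (g'⁻¹ * g)) • x := by rw [mul_inv_cancel_left]
    _ = g' • x := by rw [mul_smul, h1]

theorem nrm_eq_of_char_eq (hχ : HomOn U χ) {σ σ' : G} (hσ : σ ∈ U) (hσ' : σ' ∈ U)
    (h : χ σ = χ σ') {x : A} (hx : ∀ k ∈ U, χ k = 0 → k • x = x) : nrm σ n x = nrm σ' n x := by
  unfold nrm
  refine Finset.prod_congr rfl fun i _ => ?_
  refine smul_eq_of_char_eq hχ (U.pow_mem hσ i) (U.pow_mem hσ' i) ?_ hx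
  rw [Formal_map_pow hχ hσ, Formal_map_pow hχ hσ', h]

/-- the norm as a product over `ZMod n`. -/
theorem Formal_nrm_eq_prod (σ : G) (x : A) : nrm σ n x = ∏ c : ZMod n, σ ^ c.val • x := by
  unfold nrm
  symm
  refine Finset.prod_bij (fun c _ => c.val) (fun c _ => Finset.mem_range.mpr (ZMod.val_lt c))
    (fun a _ b _ h => ZMod.val_injective n h) (fun i hi => ?_) (fun _ _ => rfl)
  exact ⟨(i : ZMod n), Finset.mem_univ _, ZMod.val_natCast_of_lt (Finset.mem_range.mp hi)⟩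

/-- `g • x` in terms of the value of the character. -/
theorem Formal_smul_eq (hχ : HomOn U χ) {σ : G} (hσ : σ ∈ U) (hσ1 : χ σ = 1) {g : G} (hg : g ∈ U)
    {x : A} (hx : ∀ k ∈ U, χ k = 0 → k • x = x) : g • x = σ ^ (χ g).val • x := by
  refine smul_eq_of_char_eq hχ hg (U.pow_mem hσ _) ?_ hx
  rw [Formal_map_pow hχ hσ, hσ1, mul_one, ZMod.natCast_val, ZMod.cast_id', id]

omit [NeZero n] in
theorem Formal_nrm_one (σ : G) : nrm σ n (1 : A) = 1 := by
  unfold nrm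
  simp

omit [NeZero n] in
theorem Formal_nrm_mul (σ : G) (x y : A) : nrm σ n (x * y) = nrm σ n x * nrm σ n y := by
  unfold nrm
  simp only [smul_mul', Finset.prod_mul_distrib]

omit [NeZero n] in
theorem Formal_nrm_inv (σ : G) (x : A) : nrm σ n x⁻¹ = (nrm σ n x)⁻¹ := by
  unfold nrm
  simp only [smul_inv', Finset.prod_inv_distrib]

theorem isNm_one (h : ∃ σ ∈ U, χ σ = 1) : IsNm U χ (1 : A) := by
  obtain ⟨σ, hσ, h1⟩ := h
  exact ⟨σ, hσ, h1, 1, fun g _ _ => smul_one g, Formal_nrm_one σ⟩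

theorem IsNm.mul (hχ : HomOn U χ) {a b : A} (ha : IsNm U χ a) (hb : IsNm U χ b) :
    IsNm U χ (a * b) := by
  obtain ⟨σ, hσ, h1, x, hx, rfl⟩ := ha
  obtain ⟨σ', hσ', h1', y, hy, rfl⟩ := hb
  refine ⟨σ, hσ, h1, x * y, fun g hg h0 => by rw [smul_mul', hx g hg h0, hy g hg h0], ?_⟩
  rw [Formal_nrm_mul, nrm_eq_of_char_eq hχ hσ hσ' (h1.trans h1'.symm) hy]

theorem IsNm.inv {a : A} (ha : IsNm U χ a) : IsNm U χ a⁻¹ := by
  obtain ⟨σ, hσ, h1, x, hx, rfl⟩ := ha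
  exact ⟨σ, hσ, h1, x⁻¹, fun g hg h0 => by rw [smul_inv', hx g hg h0], Formal_nrm_inv σ x⟩

/-- `c ^ n` is the norm of `c ∈ A^U`. -/
theorem isNm_pow_of_fix (h : ∃ σ ∈ U, χ σ = 1) {c : A} (hc : Fix U c) : IsNm U χ (c ^ n) := by
  obtain ⟨σ, hσ, h1⟩ := h
  refine ⟨σ, hσ, h1, c, fun g hg _ => hc g hg, ?_⟩
  unfold nrm
  rw [Finset.prod_congr rfl fun i _ => hc _ (U.pow_mem hσ i)]
  simp

/-- a norm is fixed by `U`. -/
theorem IsNm.fix (hχ : HomOn U χ) {b : A} (hb : IsNm U χ b) : Fix U b := by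
  obtain ⟨σ, hσ, h1, x, hx, rfl⟩ := hb
  intro g hg
  rw [Formal_nrm_eq_prod, Finset.smul_prod']
  refine Fintype.prod_equiv (Equiv.addLeft (χ g)) _ _ fun c => ?_
  rw [← mul_smul, Formal_smul_eq hχ hσ h1 (U.mul_mem hg (U.pow_mem hσ _)) hx,
    hχ _ hg _ (U.pow_mem hσ _), Formal_map_pow hχ hσ, h1, mul_one, ZMod.natCast_val,
    ZMod.cast_id', id]
  rfl

/-- `IsNm` only depends on the kernel of the character (`n = p` prime). -/
theorem IsNm.congr_ker {p : ℕ} [Fact p.Prime] {χ χ' : G → ZMod p} (hχ : HomOn U χ)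
    (hχ' : HomOn U χ') (hker : ∀ g ∈ U, χ g = 0 ↔ χ' g = 0) (h' : ∃ σ ∈ U, χ' σ = 1) {b : A}
    (hb : IsNm U χ b) : IsNm U χ' b := by
  obtain ⟨σ, hσ, h1, x, hx, rfl⟩ := hb
  obtain ⟨σ', hσ', h1'⟩ := h'
  refine ⟨σ', hσ', h1', x, fun g hg h0 => hx g hg ((hker g hg).mpr h0), ?_⟩
  have he : χ σ' ≠ 0 := by
    intro h0
    have := (hker σ' hσ').mp h0
    rw [h1'] at this
    exact one_ne_zero this
  rw [Formal_nrm_eq_prod, Formal_nrm_eq_prod]
  refine Fintype.prod_equiv (Equiv.mulRight₀ (χ σ') he) _ _ fun c => ?_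
  rw [Formal_smul_eq hχ hσ h1 (U.pow_mem hσ' _) hx, Formal_map_pow hχ hσ', ZMod.natCast_val,
    ZMod.cast_id', id]
  rfl

/-- functoriality: pull back along `φ : G' →* G`, push forward along an equivariant `f : A →* A'`,
provided the restricted character is still onto. -/
theorem IsNm.comap {G' : Type*} [Group G'] {A' : Type*} [CommGroup A'] [MulDistribMulAction G' A']
    (hχ : HomOn U χ) (φ : G' →* G) (f : A →* A') (hf : ∀ (g : G') (a : A), f (φ g • a) = g • f a)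
    (hs : ∃ σ' ∈ U.comap φ, χ (φ σ') = 1) {b : A} (hb : IsNm U χ b) :
    IsNm (U.comap φ) (fun g => χ (φ g)) (f b) := by
  obtain ⟨σ, hσ, h1, x, hx, rfl⟩ := hb
  obtain ⟨σ', hσ', h1'⟩ := hs
  refine ⟨σ', hσ', h1', f x, fun g hg h0 => by rw [← hf, hx _ hg h0], ?_⟩
  rw [nrm_eq_of_char_eq hχ hσ hσ' (h1.trans h1'.symm) hx]
  unfold nrm
  rw [map_prod]
  refine Finset.prod_congr rfl fun i _ => ?_
  rw [← hf, map_pow]

/-- transport along an isomorphism-like pair `(φ, f)` with `φ` bijective and `f` bijective is a special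
case; conjugation form: -/
theorem IsNm.conj (h₀ : G) {b : A} (hb : IsNm U χ b) :
    IsNm (U.comap (MulAut.conj h₀).toMonoidHom) (fun g => χ (h₀ * g * h₀⁻¹)) (h₀⁻¹ • b) := by
  obtain ⟨σ, hσ, h1, x, hx, rfl⟩ := hb
  have e : h₀ * (h₀⁻¹ * σ * h₀) * h₀⁻¹ = σ := by group
  refine ⟨h₀⁻¹ * σ * h₀, ?_, ?_, h₀⁻¹ • x, fun g hg h0 => ?_, ?_⟩
  · show h₀ * (h₀⁻¹ * σ * h₀) * h₀⁻¹ ∈ U
    rw [e]
    exact hσ
  · show χ (h₀ * (h₀⁻¹ * σ * h₀) * h₀⁻¹) = 1
    rw [e]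
    exact h1
  · have h2 : (h₀ * g * h₀⁻¹) • x = x := hx _ hg h0
    calc g • h₀⁻¹ • x = h₀⁻¹ • (h₀ * g * h₀⁻¹) • x := by
          rw [← mul_smul, ← mul_smul]
          congr 1
          group
      _ = h₀⁻¹ • x := by rw [h2]
  · unfold nrm
    rw [Finset.smul_prod']
    refine Finset.prod_congr rfl fun i _ => ?_
    rw [← mul_smul, ← mul_smul]
    congr 1
    have : (h₀⁻¹ * σ * h₀) ^ i = h₀⁻¹ * σ ^ i * h₀ := by
      have := conj_pow (a := h₀⁻¹) (b := σ) (i := i)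
      rwa [inv_inv] at this
    rw [this]
    group

/-- a nonzero character with values in `ZMod p` takes the value `1`. -/
theorem exists_char_eq_one {p : ℕ} [Fact p.Prime] {χ : G → ZMod p} (hχ : HomOn U χ)
    (h : ∃ g ∈ U, χ g ≠ 0) : ∃ σ ∈ U, χ σ = 1 := by
  obtain ⟨g, hg, h0⟩ := h
  refine ⟨g ^ ((χ g)⁻¹).val, U.pow_mem hg _, ?_⟩
  rw [Formal_map_pow hχ hg, ZMod.natCast_val, ZMod.cast_id', id, inv_mul_cancel₀ h0]

end Fermat.Agent.S55.DIC.NB
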