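import Fermat.Agent.S55.DIC.NB.Defs
import Fermat.Agent.S55.DIC.NB.Formal
import Fermat.Agent.S55.DIC.Decomp

/-!
# S55-DIC / NB : the local dictionary at a place `(q, γ)`
-/

set_option autoImplicit false

open NumberField IsDedekindDomain
open Fermat.Agent.S55.LDB

namespace Fermat.Agent.S55.DIC.NB

variable {q : ℕ} [Fact q.Prime]

theorem Basic_locEmb_apply (γ : GQ) (x : Qb) :
    locEmb q γ x = padicEmbedding q (γ⁻¹ x) := rfl

theorem Basic_locHom_apply (γ : GQ) (h : Gq q) (x : Qb) :
    locHom q γ h x = γ (localGaloisToGlobal q h (γ⁻¹ x)) := rfl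

theorem Basic_locHom_eq (γ : GQ) (h : Gq q) :
    locHom q γ h = γ * localGaloisToGlobal q h * γ⁻¹ := rfl

theorem locEmb_locHom (γ : GQ) (h : Gq q) (x : Qb) :
    locEmb q γ (locHom q γ h x) = h (locEmb q γ x) := by
  rw [Basic_locEmb_apply, Basic_locEmb_apply, Basic_locHom_apply,
    ← padicEmbedding_localGaloisToGlobal]
  congr 1
  change (γ⁻¹ * γ) _ = _
  rw [inv_mul_cancel]
  rfl

theorem locEmbU_smul (γ : GQ) (h : Gq q) (a : Qbˣ) :
    locEmbU q γ (locHom q γ h • a) = h • locEmbU q γ a := by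
  ext
  exact locEmb_locHom γ h (a : Qb)

theorem locEmb_injective (γ : GQ) : Function.Injective (locEmb q γ) :=
  (locEmb q γ).injective

theorem embOf_inv_apply (F : IntermediateField ℚ Qb) (γ : GQ) (x : F) :
    embOf q F γ⁻¹ x = locEmb q γ (x : Qb) := rfl

/-- `G_{F_w} = (locHom q γ)⁻¹ (G_F)`. -/
theorem comap_locHom_fixingSubgroup (F : IntermediateField ℚ Qb) (γ : GQ) :
    F.fixingSubgroup.comap (locHom q γ) = (locF q (embOf q F γ⁻¹)).fixingSubgroup := by
  ext h
  rw [Subgroup.mem_comap, ← conj_mem_fixingSubgroup_iff, Basic_locHom_eq, inv_inv]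

variable {p : ℕ} [Fact p.Prime] {F : IntermediateField ℚ Qb} {E' : IntermediateField F Qb}
  {χ : GQ → ZMod p}

theorem embE_comp_algebraMap (γ : GQ) :
    (embE q E' γ).comp (algebraMap F E') = embOf q F γ⁻¹ := rfl

theorem locF_embOf_le_locF_embE (γ : GQ) : locF q (embOf q F γ⁻¹) ≤ locF q (embE q E' γ) := by
  rw [← embE_comp_algebraMap (E' := E') γ]
  exact locF_comp_algebraMap_le _

/-- the restricted character is additive. -/
theorem Setup.homOn_loc (S : Setup F E' χ) (γ : GQ) :
    HomOn (locF q (embOf q F γ⁻¹)).fixingSubgroup (fun h => χ (locHom q γ h)) := by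
  intro g hg h hh
  rw [← comap_locHom_fixingSubgroup, Subgroup.mem_comap] at hg hh
  change χ (locHom q γ (g * h)) = _
  rw [map_mul]
  exact S.hom _ hg _ hh

/-- the kernel of the restricted character is `G_{E'_w}`. -/
theorem Setup.ker_loc (S : Setup F E' χ) (γ : GQ) (h : Gq q)
    (hh : h ∈ (locF q (embOf q F γ⁻¹)).fixingSubgroup) :
    χ (locHom q γ h) = 0 ↔ h ∈ (locF q (embE q E' γ)).fixingSubgroup := by
  have hh' := hh
  rw [← comap_locHom_fixingSubgroup, Subgroup.mem_comap] at hh'
  rw [S.ker _ hh', IntermediateField.mem_fixingSubgroup_iff]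
  constructor
  · intro H y hy
    induction hy using IntermediateField.adjoin_induction with
    | mem y hy =>
      obtain ⟨x, rfl⟩ := hy
      change h (locEmb q γ (x : Qb)) = locEmb q γ (x : Qb)
      rw [← locEmb_locHom, H _ x.2]
    | algebraMap a => exact h.commutes a
    | add x y _ _ hx hy => rw [map_add, hx, hy]
    | inv x _ hx => rw [map_inv₀, hx]
    | mul x y _ _ hx hy => rw [map_mul, hx, hy]
  · intro H x hx
    apply locEmb_injective (q := q) γ
    rw [locEmb_locHom]
    exact H _ (mem_locF (embE q E' γ) ⟨x, hx⟩)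

/-- compatibility with `decompHom` (Decomp1): for `h ∈ G_{F_w}` the element `γ r(h) γ⁻¹` of `G_F`
restricts to `decompHom (embE q E' γ) h` on `E'`. -/
theorem coe_decompHom_embE [Normal F E'] (γ : GQ)
    (h : (locF q ((embE q E' γ).comp (algebraMap F E'))).fixingSubgroup) (x : E') :
    ((decompHom (embE q E' γ) h x : E') : Qb) = locHom q γ (h : Gq q) (x : Qb) := by
  apply locEmb_injective (q := q) γ
  rw [locEmb_locHom]
  exact emb_decompHom (embE q E' γ) h x

end Fermat.Agent.S55.DIC.NB
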