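import Fermat.Agent.S55.DIC.NB.Group

/-!
# S55-DIC / NB : `LocNm` only depends on the place
-/

set_option autoImplicit false

open NumberField IsDedekindDomain
open Fermat.Agent.S55.LDB Fermat.Agent.S55.INEQ

namespace Fermat.Agent.S55.DIC.NB

variable {p : ℕ} [Fact p.Prime] {F : IntermediateField ℚ Qb} [NumberField F] {χ : GQ → ZMod p}
variable {q : ℕ} [Fact q.Prime]

/-- `IsNm` only depends on the subgroup as a set and on the values of the character on it. -/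
theorem Conj_isNm_congr {G : Type*} [Group G] {A : Type*} [CommGroup A] [MulDistribMulAction G A]
    {n : ℕ} {U U' : Subgroup G} {ψ ψ' : G → ZMod n} (hU : ∀ g, g ∈ U' ↔ g ∈ U)
    (hψ : ∀ g ∈ U, ψ' g = ψ g) {b : A} (hb : IsNm U ψ b) : IsNm U' ψ' b := by
  obtain ⟨σ, hσ, hσ1, x, hx, hN⟩ := hb
  refine ⟨σ, (hU σ).mpr hσ, by rw [hψ σ hσ, hσ1], x, fun g hg hg0 => ?_, hN⟩
  have hg' := (hU g).mp hg
  exact hx g hg' (by rw [← hψ g hg', hg0])

theorem Conj_homOn_one {G : Type*} [Group G] {n : ℕ} {U : Subgroup G} {ψ : G → ZMod n}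
    (hψ : HomOn U ψ) : ψ 1 = 0 := by
  have := hψ 1 U.one_mem 1 U.one_mem
  rw [mul_one] at this
  exact add_eq_left.mp this.symm

theorem Conj_homOn_conj {G : Type*} [Group G] {n : ℕ} {U : Subgroup G} {ψ : G → ZMod n}
    (hψ : HomOn U ψ) {s g : G} (hs : s ∈ U) (hg : g ∈ U) : ψ (s⁻¹ * g * s) = ψ g := by
  have h1 : ψ (s⁻¹ * s) = ψ s⁻¹ + ψ s := hψ _ (U.inv_mem hs) _ hs
  rw [inv_mul_cancel, Conj_homOn_one hψ] at h1
  rw [hψ _ (U.mul_mem (U.inv_mem hs) hg) _ hs, hψ _ (U.inv_mem hs) _ hg]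
  linear_combination -h1

theorem Conj_locHom_apply (γ : GQ) (h : Gq q) :
    locHom q γ h = γ * localGaloisToGlobal q h * γ⁻¹ := rfl

/-- `placeOf_embOf_eq_iff` (Image3): `γ'⁻¹ = r(τ) γ⁻¹ s`, `s ∈ G_F`. Then
`locHom q γ' h = s⁻¹ (locHom q γ (τ⁻¹ h τ)) s`, `locEmb q γ' b = τ (locEmb q γ b)`; use `IsNm.conj τ⁻¹`. -/
theorem LocNm.of_placeOf_eq (hχ : HomOn F.fixingSubgroup χ) {γ γ' : GQ}
    (h : placeOf q (embOf q F γ⁻¹) = placeOf q (embOf q F γ'⁻¹)) {b : Qbˣ} (hbF : (b : Qb) ∈ F)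
    (hb : LocNm q γ F.fixingSubgroup χ b) : LocNm q γ' F.fixingSubgroup χ b := by
  obtain ⟨τ, s, hs, hγ⟩ := (placeOf_embOf_eq_iff F γ⁻¹ γ'⁻¹).mp h
  have hγ' : γ' = s⁻¹ * γ * (localGaloisToGlobal q τ)⁻¹ := by
    have := congrArg (·⁻¹) hγ
    simp only [inv_inv, mul_inv_rev] at this
    rw [this, mul_assoc]
  have key1 : ∀ k : Gq q, locHom q γ' k = s⁻¹ * locHom q γ (τ⁻¹ * k * τ⁻¹⁻¹) * s := by
    intro k
    rw [Conj_locHom_apply, Conj_locHom_apply, hγ, hγ', inv_inv, map_mul, map_mul, map_inv]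
    group
  have key2 : ∀ g : GQ, s⁻¹ * g * s ∈ F.fixingSubgroup ↔ g ∈ F.fixingSubgroup := by
    intro g
    constructor
    · intro hg
      have := F.fixingSubgroup.mul_mem (F.fixingSubgroup.mul_mem hs hg) (F.fixingSubgroup.inv_mem hs)
      have e : s * (s⁻¹ * g * s) * s⁻¹ = g := by group
      rwa [e] at this
    · intro hg
      exact F.fixingSubgroup.mul_mem (F.fixingSubgroup.mul_mem (F.fixingSubgroup.inv_mem hs) hg) hs
  have hU : ∀ k : Gq q, k ∈ F.fixingSubgroup.comap (locHom q γ') ↔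
      k ∈ (F.fixingSubgroup.comap (locHom q γ)).comap (MulAut.conj τ⁻¹).toMonoidHom := by
    intro k
    simp only [Subgroup.mem_comap, MulEquiv.coe_toMonoidHom, MulAut.conj_apply]
    rw [key1, key2]
  have hψ : ∀ k ∈ (F.fixingSubgroup.comap (locHom q γ)).comap (MulAut.conj τ⁻¹).toMonoidHom,
      χ (locHom q γ' k) = χ (locHom q γ (τ⁻¹ * k * τ⁻¹⁻¹)) := by
    intro k hk
    simp only [Subgroup.mem_comap, MulEquiv.coe_toMonoidHom, MulAut.conj_apply] at hk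
    rw [key1, Conj_homOn_conj hχ hs hk]
  rcases hb with hb | hb
  · left
    intro k hk
    have hk' := (hU k).mp hk
    rw [hψ k hk']
    simp only [Subgroup.mem_comap, MulEquiv.coe_toMonoidHom, MulAut.conj_apply] at hk'
    exact hb _ hk'
  · right
    have h1 := IsNm.conj τ⁻¹ hb
    have h2 : τ⁻¹⁻¹ • locEmbU q γ b = locEmbU q γ' b := by
      rw [inv_inv]
      ext
      have hsb : s (b : Qb) = b := (IntermediateField.mem_fixingSubgroup_iff _ _).mp hs _ hbF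
      show τ (padicEmbedding q (γ⁻¹ (b : Qb))) = padicEmbedding q (γ'⁻¹ (b : Qb))
      rw [hγ, ← padicEmbedding_localGaloisToGlobal]
      show _ = padicEmbedding q (localGaloisToGlobal q τ (γ⁻¹ (s (b : Qb))))
      rw [hsb]
    rw [h2] at h1
    exact Conj_isNm_congr hU hψ h1

theorem mem_locNormGroup_of_locNm (hχ : HomOn F.fixingSubgroup χ) (γ : GQ) (b : Fˣ)
    (hb : LocNm q γ F.fixingSubgroup χ (toQb F b)) :
    b ∈ locNormGroup hχ (placeOf q (embOf q F γ⁻¹)) := by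
  rw [mem_locNormGroup]
  intro q' hq' γ' h
  have hqq : q' = q := by
    by_contra hne
    have h1 : ((q' : ℕ) : 𝓞 F) ∈ primeOf q (embOf q F γ⁻¹) := by
      have := natCast_mem_primeOf (q := q') (embOf q' F γ'⁻¹)
      rw [← placeOf_asIdeal, h, placeOf_asIdeal] at this
      exact this
    have h2 : ((q : ℕ) : 𝓞 F) ∈ primeOf q (embOf q F γ⁻¹) := natCast_mem_primeOf _
    have hcop : Nat.Coprime q' q :=
      (Nat.coprime_primes (Fact.out : q'.Prime) (Fact.out : q.Prime)).mpr hne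
    obtain ⟨a, c, hac⟩ := Nat.isCoprime_iff_coprime.mpr hcop
    have h3 : ((a : 𝓞 F) * ((q' : ℕ) : 𝓞 F) + (c : 𝓞 F) * ((q : ℕ) : 𝓞 F)) = 1 := by
      have := congrArg (Int.cast : ℤ → 𝓞 F) hac
      push_cast at this
      exact this
    have h4 : (1 : 𝓞 F) ∈ primeOf q (embOf q F γ⁻¹) := by
      rw [← h3]
      exact Ideal.add_mem _ (Ideal.mul_mem_left _ _ h1) (Ideal.mul_mem_left _ _ h2)
    exact (primeOf_isPrime (embOf q F γ⁻¹)).ne_top ((Ideal.eq_top_iff_one _).mpr h4)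
  subst hqq
  exact LocNm.of_placeOf_eq hχ h.symm (by simp [toQb]) hb

end Fermat.Agent.S55.DIC.NB
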