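import Fermat.Agent.S55.DIC.NB.Galois0

/-!
# S55-DIC / NB : global Galois theory of the cyclic extension cut out by `χ`
-/

set_option autoImplicit false

open NumberField IsDedekindDomain
open Fermat.Agent.S55.LDB Fermat.Agent.S55.INEQ

namespace Fermat.Agent.S55.DIC.NB

variable {p : ℕ} [Fact p.Prime] {F : IntermediateField ℚ Qb} {E' : IntermediateField F Qb}
  {χ : GQ → ZMod p}

theorem Galois_chi_one (S : Setup F E' χ) : χ 1 = 0 := by
  have := S.hom 1 F.fixingSubgroup.one_mem 1 F.fixingSubgroup.one_mem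
  rw [mul_one] at this
  exact add_eq_left.mp this.symm

theorem Galois_chi_inv (S : Setup F E' χ) {g : GQ} (hg : g ∈ F.fixingSubgroup) :
    χ g⁻¹ = -χ g := by
  have := S.hom g hg g⁻¹ (F.fixingSubgroup.inv_mem hg)
  rw [mul_inv_cancel, Galois_chi_one S] at this
  exact (neg_eq_of_add_eq_zero_right this.symm).symm

theorem Galois_chi_pow (S : Setup F E' χ) {σ : GQ} (hσ : σ ∈ F.fixingSubgroup) (h1 : χ σ = 1)
    (i : ℕ) : χ (σ ^ i) = i := by
  induction i with
  | zero => simpa using Galois_chi_one S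
  | succ i ih =>
    rw [pow_succ, S.hom _ (F.fixingSubgroup.pow_mem hσ i) _ hσ, ih, h1]
    push_cast
    rfl

/-- two elements of `G_F` with the same `χ` agree on `E'`. -/
theorem Galois_apply_eq (S : Setup F E' χ) {g h : GQ} (hg : g ∈ F.fixingSubgroup)
    (hh : h ∈ F.fixingSubgroup) (hχ : χ g = χ h) (x : Qb) (hx : x ∈ E') : g x = h x := by
  have h1 : χ (h⁻¹ * g) = 0 := by
    rw [S.hom _ (F.fixingSubgroup.inv_mem hh) _ hg, Galois_chi_inv S hh, hχ, neg_add_cancel]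
  have h2 := (S.ker _ (F.fixingSubgroup.mul_mem (F.fixingSubgroup.inv_mem hh) hg)).mp h1 x hx
  rw [AlgEquiv.mul_apply] at h2
  have h3 : h (h⁻¹ (g x)) = g x := h.apply_symm_apply _
  rw [← h3, h2]

/-- two elements of `G_F` which agree on `E'` have the same `χ`. -/
theorem Galois_chi_eq (S : Setup F E' χ) {g h : GQ} (hg : g ∈ F.fixingSubgroup)
    (hh : h ∈ F.fixingSubgroup) (hx : ∀ x ∈ E', g x = h x) : χ g = χ h := by
  have h1 : χ (h⁻¹ * g) = 0 := by
    rw [S.ker _ (F.fixingSubgroup.mul_mem (F.fixingSubgroup.inv_mem hh) hg)]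
    intro x hxE
    rw [AlgEquiv.mul_apply, hx x hxE]
    exact h.symm_apply_apply x
  rw [S.hom _ (F.fixingSubgroup.inv_mem hh) _ hg, Galois_chi_inv S hh] at h1
  exact (neg_add_eq_zero.mp h1).symm

/-- the bijection `Fin p ≃ Gal(E'/F)`, `i ↦ σ^i|E'`. -/
theorem Galois_exists_equiv [Normal F E'] (S : Setup F E' χ) {σ : GQ}
    (hσ : σ ∈ F.fixingSubgroup) (h1 : χ σ = 1) :
    ∃ e : Fin p ≃ (E' ≃ₐ[F] E'), ∀ (i : Fin p) (x : E'),
      ((e i x : E') : Qb) = (σ ^ (i : ℕ)) (x : Qb) := by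
  have hp : p.Prime := Fact.out
  have : NeZero p := ⟨hp.ne_zero⟩
  choose ρ hρ using fun i : Fin p =>
    exists_restrict (E' := E') (σ ^ (i : ℕ)) (F.fixingSubgroup.pow_mem hσ i)
  have hinj : Function.Injective ρ := by
    intro i j hij
    have h2 : χ (σ ^ (i : ℕ)) = χ (σ ^ (j : ℕ)) := by
      refine Galois_chi_eq S (F.fixingSubgroup.pow_mem hσ i) (F.fixingSubgroup.pow_mem hσ j) ?_
      intro x hx
      rw [← hρ i ⟨x, hx⟩, ← hρ j ⟨x, hx⟩, hij]
    rw [Galois_chi_pow S hσ h1, Galois_chi_pow S hσ h1] at h2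
    have h3 := congrArg ZMod.val h2
    rw [ZMod.val_natCast_of_lt i.2, ZMod.val_natCast_of_lt j.2] at h3
    exact Fin.ext h3
  have hsurj : Function.Surjective ρ := by
    intro g'
    obtain ⟨g, hg, hgx⟩ := exists_extend g'
    refine ⟨⟨(χ g).val, ZMod.val_lt _⟩, ?_⟩
    ext x
    rw [hρ, hgx]
    refine Galois_apply_eq S (F.fixingSubgroup.pow_mem hσ _) hg ?_ x x.2
    rw [Galois_chi_pow S hσ h1]
    simp
  exact ⟨Equiv.ofBijective ρ ⟨hinj, hsurj⟩, hρ⟩

/-- (G1) the degree is `p`  (`Gal(E'/F) ≃ G_F / ker χ ≃ ZMod p`). -/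
theorem Setup.finrank_eq [FiniteDimensional F E'] [IsGalois F E'] (S : Setup F E' χ) :
    Module.finrank F E' = p := by
  obtain ⟨σ, hσ, h1⟩ := S.surj
  obtain ⟨e, -⟩ := Galois_exists_equiv S hσ h1
  rw [← IsGalois.card_aut_eq_finrank, ← Nat.card_congr e, Nat.card_eq_fintype_card,
    Fintype.card_fin]

/-- the powers of `σ` (`χ σ = 1`) restricted to `E'` are all the elements of `Gal(E'/F)`:
`N_{E'/F} y = ∏_{i<p} σ^i y`. -/
theorem Setup.norm_eq_prod [FiniteDimensional F E'] [IsGalois F E'] (S : Setup F E' χ) {σ : GQ}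
    (hσ : σ ∈ F.fixingSubgroup) (h1 : χ σ = 1) (y : E') :
    ((Algebra.norm F y : F) : Qb) = ∏ i ∈ Finset.range p, (σ ^ i) (y : Qb) := by
  classical
  obtain ⟨e, he⟩ := Galois_exists_equiv S hσ h1
  have h2 := Algebra.norm_eq_prod_automorphisms F y
  have h3 : ((Algebra.norm F y : F) : Qb) = ((algebraMap F E' (Algebra.norm F y) : E') : Qb) := rfl
  rw [h3, h2, ← Equiv.prod_comp e, ← Fin.prod_univ_eq_prod_range (fun i => (σ ^ i) (y : Qb)) p]
  have h4 : ((∏ i : Fin p, e i y : E') : Qb) = ∏ i : Fin p, ((e i y : E') : Qb) :=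
    map_prod (algebraMap E' Qb) _ _
  rw [h4]
  exact Finset.prod_congr rfl fun i _ => he i y

/-- (G2) field norms are norms in the sense of `IsNm`. -/
theorem Setup.isNm_of_norm [NumberField F] [NumberField E'] [IsGalois F E'] (S : Setup F E' χ)
    (y : E'ˣ) : IsNm F.fixingSubgroup χ (toQb F (normU F E' y)) := by
  obtain ⟨σ, hσ, h1⟩ := S.surj
  refine ⟨σ, hσ, h1, Units.map (algebraMap E' Qb : E' →* Qb) y, ?_, ?_⟩
  · intro g hg hχ
    ext
    exact (S.ker g hg).mp hχ _ (y : E').2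
  · ext
    have h2 := S.norm_eq_prod hσ h1 (y : E')
    have h3 : ((toQb F (normU F E' y) : Qbˣ) : Qb) = ((Algebra.norm F (y : E') : F) : Qb) := rfl
    rw [h3, h2, nrm, Units.coe_prod]
    rfl

end Fermat.Agent.S55.DIC.NB
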