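import Fermat.Agent.S55.DIC.NB.Basic

/-!
# S55-DIC / NB : global Galois theory of the cyclic extension cut out by `χ`
-/

set_option autoImplicit false

open NumberField IsDedekindDomain
open Fermat.Agent.S55.LDB Fermat.Agent.S55.INEQ

namespace Fermat.Agent.S55.DIC.NB

variable {p : ℕ} [Fact p.Prime] {F : IntermediateField ℚ Qb} {E' : IntermediateField F Qb}
  {χ : GQ → ZMod p}

theorem galois0_normal_Qb : Normal ℚ Qb :=
  have : IsAlgClosure ℚ Qb := ⟨inferInstance, AlgebraicClosure.isAlgebraic ℚ⟩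
  IsAlgClosure.normal ℚ Qb

theorem galois0_normal_over (F : IntermediateField ℚ Qb) : Normal F Qb :=
  have := galois0_normal_Qb
  inferInstance

theorem galois0_isGalois_Qb : IsGalois ℚ Qb :=
  have := galois0_normal_Qb
  ⟨⟩

theorem galois0_isGalois_over (F : IntermediateField ℚ Qb) : IsGalois F Qb :=
  have := galois0_isGalois_Qb
  inferInstance

/-- restriction `G_F → Gal(E'/F)`. -/
theorem exists_restrict [Normal F E'] (g : GQ) (hg : g ∈ F.fixingSubgroup) :
    ∃ g' : E' ≃ₐ[F] E', ∀ x : E', ((g' x : E') : Qb) = g (x : Qb) := by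
  refine ⟨AlgEquiv.restrictNormal (F.fixingSubgroupEquiv ⟨g, hg⟩) E', fun x => ?_⟩
  exact AlgEquiv.restrictNormal_commutes (F.fixingSubgroupEquiv ⟨g, hg⟩) E' x

/-- every element of `Gal(E'/F)` is the restriction of an element of `G_F`. -/
theorem exists_extend [Normal F E'] (g' : E' ≃ₐ[F] E') :
    ∃ g ∈ F.fixingSubgroup, ∀ x : E', ((g' x : E') : Qb) = g (x : Qb) := by
  have := galois0_normal_over F
  obtain ⟨s, hs⟩ := AlgEquiv.restrictNormalHom_surjective (F := F) (K₁ := E') Qb g'
  refine ⟨(F.fixingSubgroupEquiv.symm s : GQ), (F.fixingSubgroupEquiv.symm s).2, fun x => ?_⟩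
  rw [← hs]
  exact AlgEquiv.restrictNormal_commutes s E' x

theorem galois0_chi_one {U : Subgroup GQ} (hχ : HomOn U χ) : χ 1 = 0 := by
  have := hχ 1 U.one_mem 1 U.one_mem
  rw [mul_one] at this
  exact add_eq_left.mp this.symm

theorem galois0_chi_inv {U : Subgroup GQ} (hχ : HomOn U χ) {g : GQ} (hg : g ∈ U) :
    χ g⁻¹ = - χ g := by
  have := hχ g hg g⁻¹ (U.inv_mem hg)
  rw [mul_inv_cancel, galois0_chi_one hχ] at this
  exact (neg_eq_of_add_eq_zero_right this.symm).symm

/-- `G_F` stabilises `E`. -/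
theorem galois0_map_mem (F E : IntermediateField ℚ Qb) (hχ : HomOn F.fixingSubgroup χ)
    (hker : ∀ g ∈ F.fixingSubgroup, χ g = 0 ↔ g ∈ E.fixingSubgroup) (hFE : F ≤ E)
    {g : GQ} (hg : g ∈ F.fixingSubgroup) {x : Qb} (hx : x ∈ E) : g x ∈ E := by
  have := galois0_isGalois_Qb
  rw [← InfiniteGalois.fixedField_fixingSubgroup E, IntermediateField.mem_fixedField_iff]
  intro h hh
  have hhF : h ∈ F.fixingSubgroup := by
    rw [IntermediateField.mem_fixingSubgroup_iff] at hh ⊢
    exact fun y hy => hh y (hFE hy)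
  have hg' := F.fixingSubgroup.inv_mem hg
  have h1 : χ (g⁻¹ * h * g) = 0 := by
    rw [hχ _ (F.fixingSubgroup.mul_mem hg' hhF) _ hg, hχ _ hg' _ hhF, galois0_chi_inv hχ hg,
      (hker h hhF).2 hh]
    ring
  have h2 := (hker _ (F.fixingSubgroup.mul_mem (F.fixingSubgroup.mul_mem hg' hhF) hg)).1 h1
  rw [IntermediateField.mem_fixingSubgroup_iff] at h2
  have h3 := h2 x hx
  have h4 : g ((g⁻¹ * h * g) x) = h (g x) := by
    simp only [AlgEquiv.mul_apply]
    exact AlgEquiv.apply_symm_apply g _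
  rw [← h4, h3]

/-- (G0) construction of the set-up from two subfields `F ≤ E` of `ℚ̄`. -/
theorem exists_setup (F E : IntermediateField ℚ Qb) [FiniteDimensional ℚ F]
    [FiniteDimensional ℚ E] (hFE : F ≤ E) (hχ : HomOn F.fixingSubgroup χ)
    (hker : ∀ g ∈ F.fixingSubgroup, χ g = 0 ↔ g ∈ E.fixingSubgroup)
    (hsurj : ∃ σ ∈ F.fixingSubgroup, χ σ = 1) :
    ∃ E' : IntermediateField F Qb, Setup F E' χ ∧ FiniteDimensional F E' ∧ IsGalois F E' ∧
      ∀ x : Qb, x ∈ E' ↔ x ∈ E := by
  have hmem : ∀ x : Qb, x ∈ IntermediateField.extendScalars hFE ↔ x ∈ E :=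
    fun x => IntermediateField.mem_extendScalars hFE
  have hnF := galois0_normal_over F
  have hgF := galois0_isGalois_over F
  refine ⟨IntermediateField.extendScalars hFE, ⟨hχ, fun g hg => ?_, hsurj⟩, ?_, ?_, hmem⟩
  · rw [hker g hg, IntermediateField.mem_fixingSubgroup_iff]
    exact ⟨fun h x hx => h x ((hmem x).1 hx), fun h x hx => h x ((hmem x).2 hx)⟩
  · let f : E →+ (IntermediateField.extendScalars hFE) :=
      { toFun := fun x => ⟨x.1, (hmem _).2 x.2⟩
        map_zero' := rfl
        map_add' := fun _ _ => rfl }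
    have h2 : Module.Finite ℚ (IntermediateField.extendScalars hFE) :=
      Module.Finite.of_surjective f.toRatLinearMap (fun y => ⟨⟨y.1, (hmem _).1 y.2⟩, rfl⟩)
    exact Module.Finite.of_restrictScalars_finite ℚ F _
  · have hn : Normal F (IntermediateField.extendScalars hFE) := by
      rw [IntermediateField.normal_iff_forall_map_le']
      intro s y hy
      obtain ⟨x, hx, rfl⟩ := hy
      rw [hmem]
      exact galois0_map_mem F E hχ hker hFE (F.fixingSubgroupEquiv.symm s).2 ((hmem x).1 hx)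
    have hs : Algebra.IsSeparable F (IntermediateField.extendScalars hFE) := 
      Algebra.isSeparable_tower_bot_of_isSeparable F _ Qb
    exact ⟨⟩

end Fermat.Agent.S55.DIC.NB
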