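import Fermat.Agent.S55.DIC.NB.Defs

/-!
# S55-DIC / NB : elements close to `1` are `p`-th powers (uniformly in the local field)
-/

set_option autoImplicit false

namespace Fermat.Agent.S55.DIC.NB

variable {q : ℕ} [Fact q.Prime]

/-- a positive lower bound for `‖ζ - 1‖`, `ζ ≠ 1` a `p`-th root of unity. -/
theorem Pow_exists_delta0 (p : ℕ) [Fact p.Prime] :
    ∃ δ : ℝ, 0 < δ ∧ δ ≤ 1 ∧ ∀ ζ : PadicAlgCl q, ζ ^ p = 1 → ζ ≠ 1 → δ ≤ ‖ζ - 1‖ := by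
  classical
  have hp : 0 < p := (Fact.out : p.Prime).pos
  set S : Finset (PadicAlgCl q) := (Polynomial.nthRootsFinset p (1 : PadicAlgCl q)).erase 1 with hS
  have hmem : ∀ ζ : PadicAlgCl q, ζ ^ p = 1 → ζ ≠ 1 → ζ ∈ S := by
    intro ζ h1 h2
    rw [hS, Finset.mem_erase]
    exact ⟨h2, (Polynomial.mem_nthRootsFinset hp 1).2 h1⟩
  by_cases hne : S.Nonempty
  · obtain ⟨ζ₀, hζ₀, hmin⟩ := S.exists_min_image (fun ζ => ‖ζ - 1‖) hne
    have hζ₀1 : ζ₀ ≠ 1 := (Finset.mem_erase.1 hζ₀).1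
    refine ⟨min ‖ζ₀ - 1‖ 1, lt_min (norm_pos_iff.2 (sub_ne_zero.2 hζ₀1)) one_pos,
      min_le_right _ _, ?_⟩
    intro ζ h1 h2
    exact (min_le_left _ _).trans (hmin ζ (hmem ζ h1 h2))
  · refine ⟨1, one_pos, le_rfl, ?_⟩
    intro ζ h1 h2
    exact absurd ⟨ζ, hmem ζ h1 h2⟩ hne

theorem Pow_norm_algEquiv (τ : PadicAlgCl q ≃ₐ[ℚ_[q]] PadicAlgCl q) (y : PadicAlgCl q) :
    ‖τ y‖ = ‖y‖ := by
  have := nnnorm_padicAlgCl_algEquiv q τ y
  exact congrArg NNReal.toReal this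

theorem Pow_exists_root_near (p : ℕ) [Fact p.Prime] (δ : ℝ) (hδ : 0 < δ) (x : PadicAlgCl q)
    (hx : ‖x - 1‖ < δ ^ p) : ∃ c : PadicAlgCl q, c ^ p = x ∧ ‖c - 1‖ < δ := by
  classical
  have hp : 0 < p := (Fact.out : p.Prime).pos
  have : NeZero p := ⟨hp.ne'⟩
  have : NeZero (p : PadicAlgCl q) := ⟨Nat.cast_ne_zero.2 hp.ne'⟩
  obtain ⟨c₀, hc₀⟩ := IsAlgClosed.exists_pow_nat_eq x hp
  obtain ⟨ζ, hζ⟩ := HasEnoughRootsOfUnity.exists_primitiveRoot (PadicAlgCl q) p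
  have hprod := hζ.pow_sub_pow_eq_prod_sub_mul (1 : PadicAlgCl q) c₀ hp
  have hcard := hζ.card_nthRootsFinset
  by_contra hcon
  push Not at hcon
  have hge : ∀ μ ∈ Polynomial.nthRootsFinset p (1 : PadicAlgCl q), δ ≤ ‖1 - μ * c₀‖ := by
    intro μ hμ
    have hμ1 : μ ^ p = 1 := (Polynomial.mem_nthRootsFinset hp 1).1 hμ
    have := hcon (μ * c₀) (by rw [mul_pow, hμ1, one_mul, hc₀])
    rwa [norm_sub_rev] at this
  have h1 : δ ^ p ≤ ∏ μ ∈ Polynomial.nthRootsFinset p (1 : PadicAlgCl q), ‖1 - μ * c₀‖ := by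
    have h0 : δ ^ p = ∏ _μ ∈ Polynomial.nthRootsFinset p (1 : PadicAlgCl q), δ := by
      rw [Finset.prod_const, hcard]
    rw [h0]
    exact Finset.prod_le_prod (fun _ _ => hδ.le) hge
  rw [← norm_prod, ← hprod, one_pow, hc₀, norm_sub_rev] at h1
  exact absurd hx (not_lt.2 h1)

/-- Proof without Hensel: let `δ = min_{ζ^p = 1, ζ ≠ 1} ‖ζ - 1‖ > 0`, `δ ≤ 1`. If `‖x - 1‖ < δ ^ p`, let `c` be a
root of `X^p - x` in `Ω` with `‖c - 1‖` minimal; `∏_{ζ} (1 - c ζ) = 1 - x` gives `‖c - 1‖ < δ`, `‖c‖ = 1`.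
For `τ ∈ G_K`: `τ c = c ζ`, `‖τ c - 1‖ = ‖c - 1‖`, so `‖ζ - 1‖ = ‖τ c - c‖ < δ`, so `ζ = 1`. Hence
`c ∈ Ω^{G_K} = K` (`InfiniteGalois.fixedField_fixingSubgroup`). -/
theorem exists_delta_pow (p : ℕ) [Fact p.Prime] :
    ∃ δ : ℝ, 0 < δ ∧ ∀ K : IntermediateField ℚ_[q] (PadicAlgCl q), ∀ x ∈ K, ‖x - 1‖ < δ →
      ∃ c ∈ K, c ^ p = x := by
  obtain ⟨δ, hδ0, hδ1, hδ⟩ := Pow_exists_delta0 (q := q) p
  refine ⟨δ ^ p, pow_pos hδ0 p, ?_⟩
  intro K x hxK hx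
  obtain ⟨c, hcx, hc⟩ := Pow_exists_root_near p δ hδ0 x hx
  refine ⟨c, ?_, hcx⟩
  have hc1 : ‖c‖ = 1 := by
    have h : ‖c - 1‖ < ‖(1 : PadicAlgCl q)‖ := by rw [norm_one]; exact lt_of_lt_of_le hc hδ1
    have := IsUltrametricDist.norm_add_eq_max_of_norm_ne_norm (x := c - 1) (y := 1) h.ne
    rw [sub_add_cancel, max_eq_right h.le, norm_one] at this
    exact this
  have hc0 : c ≠ 0 := by
    intro h
    rw [h, norm_zero] at hc1
    exact zero_ne_one hc1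
  have hfix : ∀ τ ∈ K.fixingSubgroup, τ c = c := by
    intro τ hτ
    by_contra hne
    have hτx : τ x = x := (IntermediateField.mem_fixingSubgroup_iff K τ).1 hτ x hxK
    have h1 : (τ c / c) ^ p = 1 := by
      rw [div_pow, ← map_pow, hcx, hτx, div_self]
      rw [← hcx]
      exact pow_ne_zero _ hc0
    have h2 : τ c / c ≠ 1 := by
      intro h
      exact hne ((div_eq_one_iff_eq hc0).1 h)
    have h3 := hδ _ h1 h2
    have h4 : τ c / c - 1 = (τ c - c) / c := by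
      field_simp
    have h5 : ‖τ c - 1‖ = ‖c - 1‖ := by
      have : τ c - 1 = τ (c - 1) := by rw [map_sub, map_one]
      rw [this, Pow_norm_algEquiv]
    have h6 : ‖τ c - c‖ ≤ max ‖τ c - 1‖ ‖c - 1‖ := by
      have : τ c - c = (τ c - 1) + (1 - c) := by ring
      rw [this, ← norm_sub_rev 1 c]
      exact IsUltrametricDist.norm_add_le_max _ _
    rw [h5, max_self] at h6
    rw [h4, norm_div, hc1, div_one] at h3
    exact absurd (lt_of_le_of_lt h6 hc) (not_lt.2 h3)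
  have hmem : c ∈ IntermediateField.fixedField K.fixingSubgroup := by
    rw [IntermediateField.mem_fixedField_iff]
    exact hfix
  rwa [InfiniteGalois.fixedField_fixingSubgroup] at hmem

end Fermat.Agent.S55.DIC.NB
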