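import Fermat.Agent.S55.DIC.NB.Galois
import Fermat.Agent.S55.DIC.NB.Pow

/-!
# S55-DIC / NB : the true local norm groups form a `LocalNorm` family
-/

set_option autoImplicit false

open NumberField IsDedekindDomain
open Fermat.Agent.S55.LDB Fermat.Agent.S55.INEQ

namespace Fermat.Agent.S55.DIC.NB

variable {p : ℕ} [Fact p.Prime] {F : IntermediateField ℚ Qb} [NumberField F]
  {E' : IntermediateField F Qb} {χ : GQ → ZMod p}

section
variable {q : ℕ} [Fact q.Prime]

omit [Fact p.Prime] in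
/-- the restricted character is additive. -/
theorem Group_homOn_comap (hχ : HomOn F.fixingSubgroup χ) (γ : GQ) :
    HomOn (F.fixingSubgroup.comap (locHom q γ)) (fun h => χ (locHom q γ h)) := by
  intro g hg h hh
  change χ (locHom q γ (g * h)) = χ (locHom q γ g) + χ (locHom q γ h)
  rw [map_mul]
  exact hχ _ hg _ hh

/-- either the restricted character is trivial or it takes the value `1`. -/
theorem Group_triv_or_surj (hχ : HomOn F.fixingSubgroup χ) (γ : GQ) :
    (∀ h ∈ F.fixingSubgroup.comap (locHom q γ), χ (locHom q γ h) = 0) ∨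
      ∃ σ ∈ F.fixingSubgroup.comap (locHom q γ), χ (locHom q γ σ) = 1 := by
  by_cases h0 : ∀ h ∈ F.fixingSubgroup.comap (locHom q γ), χ (locHom q γ h) = 0
  · exact Or.inl h0
  · right
    push Not at h0
    exact exists_char_eq_one (Group_homOn_comap hχ γ) h0

theorem locNm_one (hχ : HomOn F.fixingSubgroup χ) (γ : GQ) :
    LocNm q γ F.fixingSubgroup χ 1 := by
  rcases Group_triv_or_surj (q := q) hχ γ with h0 | h1
  · exact Or.inl h0
  · right
    rw [map_one]
    exact isNm_one h1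

theorem LocNm.mul (hχ : HomOn F.fixingSubgroup χ) {γ : GQ} {a b : Qbˣ}
    (ha : LocNm q γ F.fixingSubgroup χ a) (hb : LocNm q γ F.fixingSubgroup χ b) :
    LocNm q γ F.fixingSubgroup χ (a * b) := by
  rcases ha with h0 | ha
  · exact Or.inl h0
  rcases hb with h0 | hb
  · exact Or.inl h0
  right
  rw [map_mul]
  exact IsNm.mul (Group_homOn_comap hχ γ) ha hb

theorem LocNm.inv {γ : GQ} {a : Qbˣ} (ha : LocNm q γ F.fixingSubgroup χ a) :
    LocNm q γ F.fixingSubgroup χ a⁻¹ := by
  rcases ha with h0 | ha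
  · exact Or.inl h0
  right
  rw [map_inv]
  exact IsNm.inv ha

/-- a global norm is a local norm everywhere (formal: `IsNm.comap`). -/
theorem locNm_of_isNm (hχ : HomOn F.fixingSubgroup χ) (γ : GQ) {b : Qbˣ}
    (hb : IsNm F.fixingSubgroup χ b) : LocNm q γ F.fixingSubgroup χ b := by
  rcases Group_triv_or_surj (q := q) hχ γ with h0 | h1
  · exact Or.inl h0
  · exact Or.inr (IsNm.comap hχ (locHom q γ) (locEmbU q γ) (locEmbU_smul γ) h1 hb)

/-- a local `p`-th power is a local norm. -/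
theorem locNm_of_pow (hχ : HomOn F.fixingSubgroup χ) (γ : GQ) {b : Qbˣ}
    (hb : ∃ c ∈ locF q (embOf q F γ⁻¹), c ^ p = locEmb q γ (b : Qb)) :
    LocNm q γ F.fixingSubgroup χ b := by
  rcases Group_triv_or_surj (q := q) hχ γ with h0 | h1
  · exact Or.inl h0
  right
  obtain ⟨c, hc, hcp⟩ := hb
  have hval : ((locEmbU q γ b : (PadicAlgCl q)ˣ) : PadicAlgCl q) = locEmb q γ (b : Qb) := rfl
  have hc0 : c ≠ 0 := by
    rintro rfl
    rw [zero_pow (Fact.out : p.Prime).ne_zero, ← hval] at hcp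
    exact (Units.ne_zero _) hcp.symm
  have hfix : Fix (F.fixingSubgroup.comap (locHom q γ)) (Units.mk0 c hc0) := by
    intro g hg
    rw [comap_locHom_fixingSubgroup] at hg
    apply Units.ext
    exact hg ⟨c, hc⟩
  have hpow : locEmbU q γ b = Units.mk0 c hc0 ^ p := by
    apply Units.ext
    rw [hval, Units.val_pow_eq_pow_val, Units.val_mk0, hcp]
  rw [hpow]
  exact isNm_pow_of_fix h1 hfix

end

/-- the true local norm group at `w`. -/
def locNormGroup (hχ : HomOn F.fixingSubgroup χ) (w : HeightOneSpectrum (𝓞 F)) : Subgroup Fˣ where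
  carrier := locNormSet F χ w
  one_mem' := by
    intro q _ γ _
    rw [map_one]
    exact locNm_one hχ γ
  mul_mem' := by
    intro a b ha hb q _ γ h
    rw [map_mul]
    exact (ha q γ h).mul hχ (hb q γ h)
  inv_mem' := by
    intro a ha q _ γ h
    rw [map_inv]
    exact (ha q γ h).inv

theorem mem_locNormGroup (hχ : HomOn F.fixingSubgroup χ) (w : HeightOneSpectrum (𝓞 F)) (b : Fˣ) :
    b ∈ locNormGroup hχ w ↔ ∀ (q : ℕ) [Fact q.Prime] (γ : GQ),
      placeOf q (embOf q F γ⁻¹) = w → LocNm q γ F.fixingSubgroup χ (toQb F b) := Iff.rfl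

/-- every finite place of `F` is of the form `(q, γ)`. -/
theorem exists_place_rep (w : HeightOneSpectrum (𝓞 F)) :
    ∃ (q : ℕ) (_ : Fact q.Prime) (γ : GQ), placeOf q (embOf q F γ⁻¹) = w := by
  obtain ⟨ℓ, hℓ, hmem⟩ := exists_prime_natCast_mem w
  have : Fact ℓ.Prime := ⟨hℓ⟩
  obtain ⟨j, hj⟩ := exists_emb_placeOf_eq w hmem
  obtain ⟨σ, hσ⟩ := exists_embOf_eq F j
  exact ⟨ℓ, ⟨hℓ⟩, σ⁻¹, by rw [inv_inv, hσ, hj]⟩

/-- (L-a) -/
theorem norm_mem_locNormGroup [NumberField E'] [IsGalois F E'] (S : Setup F E' χ)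
    (w : HeightOneSpectrum (𝓞 F)) (y : E'ˣ) : normU F E' y ∈ locNormGroup S.hom w := by
  rw [mem_locNormGroup]
  intro q _ γ _
  exact locNm_of_isNm S.hom γ (S.isNm_of_norm y)

end Fermat.Agent.S55.DIC.NB
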