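import Fermat.Agent.S55.DIC.NB.Split
import Fermat.Agent.S55.DIC.Dense

/-!
# S55-DIC / NB : outside `T` (unit, unramified) everything is a local norm
-/

set_option autoImplicit false

open NumberField IsDedekindDomain
open Fermat.Agent.S55.LDB Fermat.Agent.S55.INEQ

namespace Fermat.Agent.S55.DIC.NB

variable {p : ℕ} [Fact p.Prime] {F : IntermediateField ℚ Qb} [NumberField F]
  {E' : IntermediateField F Qb} [NumberField E'] [IsGalois F E'] {χ : GQ → ZMod p}
variable {q : ℕ} [Fact q.Prime]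

/-- the value groups of `E'_P` and `F_w` agree when `P / w` is unramified
(`π ∈ F` with `ord_w π = 1` has `ord_P π = 1`; `exists_zpow_norm_eq`, Dense2). -/
theorem exists_norm_eq_of_unramOutside {T : Set (HeightOneSpectrum (𝓞 F))}
    (hT : UnramOutside E' T) (γ : GQ) (hw : placeOf q (embOf q F γ⁻¹) ∉ T)
    {y : PadicAlgCl q} (hy : y ∈ locF q (embE q E' γ)) (hy0 : y ≠ 0) :
    ∃ x ∈ locF q (embOf q F γ⁻¹), ‖y‖ = ‖x‖ := by
  have hunder := under_placeOf_embE (q := q) (E' := E') γ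
  have hval := hT (placeOf q (embE q E' γ)) (by rw [hunder]; exact hw)
  rw [hunder] at hval
  obtain ⟨π, hπ⟩ := exists_uniformizer (placeOf q (embOf q F γ⁻¹))
  have hπ' : ord (placeOf q (embE q E' γ)) (algebraMap F E' (π : F)) = 1 := by
    rw [ord, hval, ← hπ, ord]
  obtain ⟨n, hn⟩ := exists_zpow_norm_eq (embE q E' γ) hπ' hy hy0
  have hcomp : embE q E' γ (algebraMap F E' (π : F)) = embOf q F γ⁻¹ (π : F) := by
    rw [← embE_comp_algebraMap (q := q) (E' := E') γ]
    rfl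
  refine ⟨embOf q F γ⁻¹ ((π : F) ^ n), mem_locF _ _, ?_⟩
  rw [hn, hcomp, map_zpow₀, norm_zpow]

theorem locNm_of_unram (hunr : LocUnrHyp p) (S : Setup F E' χ)
    {T : Set (HeightOneSpectrum (𝓞 F))} (hT : UnramOutside E' T) (γ : GQ)
    (hw : placeOf q (embOf q F γ⁻¹) ∉ T) (b : Fˣ) (hb : b ∈ T.unit F) :
    LocNm q γ F.fixingSubgroup χ (toQb F b) := by
  by_cases htriv : ∀ h ∈ F.fixingSubgroup.comap (locHom q γ), χ (locHom q γ h) = 0
  · exact Or.inl htriv
  right
  push Not at htriv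
  rw [comap_locHom_fixingSubgroup] at htriv ⊢
  have hhom := S.homOn_loc (q := q) γ
  have hσ := exists_char_eq_one hhom htriv
  have hcoe : ((locEmbU q γ (toQb F b) : (PadicAlgCl q)ˣ) : PadicAlgCl q) =
      embOf q F γ⁻¹ (b : F) := by
    rw [embOf_inv_apply]
    rfl
  refine hunr q (locF q (embOf q F γ⁻¹)) (locF q (embE q E' γ)) inferInstance inferInstance
    (locF_embOf_le_locF_embE γ) (fun h => χ (locHom q γ h)) hhom (fun g hg => S.ker_loc γ g hg) hσ
    (fun y hy hy0 => exists_norm_eq_of_unramOutside hT γ hw hy hy0) _ ?_ ?_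
  · rw [hcoe]
    exact mem_locF _ _
  · rw [hcoe]
    exact norm_eq_one_of_ord_eq_zero _ b.ne_zero ((mem_unit_iff_ord T b).mp hb _ hw)

end Fermat.Agent.S55.DIC.NB
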