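import Fermat.Agent.S55.DIC.NB.NeTop
import Fermat.Agent.S55.DIC.NB.Conj
import Fermat.Agent.S55.DIC.NB.Unr
import Fermat.Agent.S55.INEQ.Main

/-!
# S55-DIC / NB : **(HNT) and (EX) in On-style** (exports for BRG)
-/

set_option autoImplicit false

open NumberField IsDedekindDomain
open Fermat.Agent.S55.LDB Fermat.Agent.S55.INEQ

namespace Fermat.Agent.S55.DIC.NB

variable {p : ℕ} [Fact p.Prime]

/-- an element of `ℚ̄ˣ` lying in `F` comes from `Fˣ`. -/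
theorem main_exists_toQb (F : IntermediateField ℚ Qb) (b : Qbˣ) (hb : (b : Qb) ∈ F) :
    ∃ b' : Fˣ, toQb F b' = b := by
  have h0 : (⟨(b : Qb), hb⟩ : F) ≠ 0 := by
    intro h
    exact b.ne_zero (congrArg Subtype.val h)
  refine ⟨Units.mk0 ⟨(b : Qb), hb⟩ h0, ?_⟩
  ext
  rfl

theorem main_toQb_mem (F : IntermediateField ℚ Qb) (b : Fˣ) : ((toQb F b : Qbˣ) : Qb) ∈ F :=
  (b : F).2

/-- the primitive root as an element of `F`. -/
theorem main_isPrimitiveRoot (F : IntermediateField ℚ Qb) (ζ : Qb) (hζ : IsPrimitiveRoot ζ p)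
    (hζF : ζ ∈ F) : IsPrimitiveRoot (⟨ζ, hζF⟩ : F) p :=
  IsPrimitiveRoot.of_map_of_injective (f := algebraMap F Qb) hζ (algebraMap F Qb).injective

/-- **Hasse norm theorem, On-style.** `F ≤ E` number fields in `ℚ̄`, `μ_p ⊆ F`, `χ` a character of `G_F` onto
`ZMod p` with kernel `G_E`, `b ∈ Fˣ` a local norm at all finite places `(q, γ)` ⟹ `b` is a norm. -/
theorem hnt_on (hp2 : p ≠ 2) (hidx : LocIdxHyp p)
    (F E : IntermediateField ℚ Qb) [FiniteDimensional ℚ F] [FiniteDimensional ℚ E] (hFE : F ≤ E)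
    (ζ : Qb) (hζ : IsPrimitiveRoot ζ p) (hζF : ζ ∈ F)
    (χ : GQ → ZMod p) (hχ : HomOn F.fixingSubgroup χ)
    (hker : ∀ g ∈ F.fixingSubgroup, χ g = 0 ↔ g ∈ E.fixingSubgroup)
    (hsurj : ∃ σ ∈ F.fixingSubgroup, χ σ = 1)
    (b : Qbˣ) (hb : (b : Qb) ∈ F)
    (hloc : ∀ (q : ℕ) [Fact q.Prime] (γ : GQ), LocNm q γ F.fixingSubgroup χ b) :
    IsNm F.fixingSubgroup χ b := by
  obtain ⟨E', S, hfd, hgal, -⟩ := exists_setup F E hFE hχ hker hsurj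
  have : NumberField F := ⟨⟩
  have : NumberField E' := NumberField.of_module_finite F E'
  obtain ⟨b', rfl⟩ := main_exists_toQb F b hb
  obtain ⟨y, hy⟩ := hasse_norm_theorem p hp2 (main_isPrimitiveRoot F ζ hζ hζF) S.finrank_eq
    (localNorm_locNormGroup hidx S) b' (fun w q _ γ _ => hloc q γ)
  rw [← hy]
  exact S.isNm_of_norm y

/-- **(EX), On-style.** Two different places `w₁ = (q₁, γ₁)`, `w₂ = (q₂, γ₂)` of `F` at which `χ` is non trivial: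
there is `b ∈ Fˣ` which is a local norm at all places different from `w₁`, `w₂` and not at both. -/
theorem ex_on (hp2 : p ≠ 2) (hidx : LocIdxHyp p) (hunr : LocUnrHyp p)
    (F E : IntermediateField ℚ Qb) [NumberField F] [FiniteDimensional ℚ E] (hFE : F ≤ E)
    (ζ : Qb) (hζ : IsPrimitiveRoot ζ p) (hζF : ζ ∈ F)
    (χ : GQ → ZMod p) (hχ : HomOn F.fixingSubgroup χ)
    (hker : ∀ g ∈ F.fixingSubgroup, χ g = 0 ↔ g ∈ E.fixingSubgroup)
    (q₁ : ℕ) [Fact q₁.Prime] (γ₁ : GQ) (q₂ : ℕ) [Fact q₂.Prime] (γ₂ : GQ)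
    (hne : placeOf q₁ (embOf q₁ F γ₁⁻¹) ≠ placeOf q₂ (embOf q₂ F γ₂⁻¹))
    (h₁ : ∃ h ∈ F.fixingSubgroup.comap (locHom q₁ γ₁), χ (locHom q₁ γ₁ h) ≠ 0)
    (h₂ : ∃ h ∈ F.fixingSubgroup.comap (locHom q₂ γ₂), χ (locHom q₂ γ₂ h) ≠ 0) :
    ∃ b : Qbˣ, (b : Qb) ∈ F ∧
      (∀ (q : ℕ) [Fact q.Prime] (γ : GQ),
        placeOf q (embOf q F γ⁻¹) ≠ placeOf q₁ (embOf q₁ F γ₁⁻¹) →
        placeOf q (embOf q F γ⁻¹) ≠ placeOf q₂ (embOf q₂ F γ₂⁻¹) →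
        LocNm q γ F.fixingSubgroup χ b) ∧
      ¬ (LocNm q₁ γ₁ F.fixingSubgroup χ b ∧ LocNm q₂ γ₂ F.fixingSubgroup χ b) := by
  have hsurj : ∃ σ ∈ F.fixingSubgroup, χ σ = 1 := by
    obtain ⟨h, hh, hne0⟩ := h₁
    exact exists_char_eq_one hχ ⟨locHom q₁ γ₁ h, hh, hne0⟩
  obtain ⟨E', S, hfd, hgal, -⟩ := exists_setup F E hFE hχ hker hsurj
  have : NumberField E' := NumberField.of_module_finite F E'
  obtain ⟨T, -, -, -, hTun, b, hbT, hin, hnot⟩ :=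
    exists_two_point p hp2 (main_isPrimitiveRoot F ζ hζ hζF) S.finrank_eq
      (localNorm_locNormGroup hidx S) _ _ hne
      (nonsplit_of_exists_char_ne_zero S γ₁ h₁) (nonsplit_of_exists_char_ne_zero S γ₂ h₂)
      ∅ Set.finite_empty
  refine ⟨toQb F b, main_toQb_mem F b, ?_, ?_⟩
  · intro q _ γ hw₁ hw₂
    by_cases hT : placeOf q (embOf q F γ⁻¹) ∈ T
    · exact hin _ hT hw₁ hw₂ q γ rfl
    · exact locNm_of_unram hunr S hTun γ hT b hbT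
  · rintro ⟨hb₁, hb₂⟩
    exact hnot ⟨mem_locNormGroup_of_locNm S.hom γ₁ b hb₁, mem_locNormGroup_of_locNm S.hom γ₂ b hb₂⟩

end Fermat.Agent.S55.DIC.NB
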