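import Fermat.Agent.S55.DIC.NB.Group

/-!
# S55-DIC / NB : (L-b) the true local norm groups are open
-/

set_option autoImplicit false

open NumberField IsDedekindDomain
open Fermat.Agent.S55.LDB Fermat.Agent.S55.INEQ

namespace Fermat.Agent.S55.DIC.NB

variable {p : ℕ} [Fact p.Prime] {F : IntermediateField ℚ Qb} [NumberField F]
  {E' : IntermediateField F Qb} {χ : GQ → ZMod p}

/-- (L-b) openness; `n` is uniform in `(q, γ)`: `q` is determined by `w`
(`natCast_mem_placeOf_iff`), `‖j x‖` only depends on the place (`norm_eq_of_placeOf_eq`),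
`δ` of `exists_delta_pow` only on `q`, `p`. -/
theorem exists_princ_le_locNormGroup (hχ : HomOn F.fixingSubgroup χ)
    (w : HeightOneSpectrum (𝓞 F)) : ∃ n : ℕ, princ w n ≤ locNormGroup hχ w := by
  obtain ⟨q₀, hq₀, γ₀, hw⟩ := exists_place_rep w
  obtain ⟨δ, hδ, hpow⟩ := exists_delta_pow (q := q₀) p
  obtain ⟨n, hn⟩ := exists_ord_bound (embOf q₀ F γ₀⁻¹) hδ
  refine ⟨n, fun u hu => ?_⟩
  rw [mem_princ] at hu
  rw [mem_locNormGroup]
  intro q hq γ hγ
  have hqq : q₀ = q := by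
    refine (natCast_mem_placeOf_iff (embOf q F γ⁻¹) q₀ hq₀.out).mp ?_
    rw [hγ, ← hw]
    exact (natCast_mem_placeOf_iff (embOf q₀ F γ₀⁻¹) q₀ hq₀.out).mpr rfl
  subst hqq
  have hsmall : ‖embOf q₀ F γ⁻¹ (u : F) - 1‖ < δ := by
    have h1 : embOf q₀ F γ⁻¹ (u : F) - 1 = embOf q₀ F γ⁻¹ ((u : F) - 1) := by
      rw [map_sub, map_one]
    rw [h1, norm_eq_of_placeOf_eq (embOf q₀ F γ⁻¹) (embOf q₀ F γ₀⁻¹) (hγ.trans hw.symm)]
    by_cases hx : (u : F) - 1 = 0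
    · rw [hx, map_zero, norm_zero]
      exact hδ
    · refine hn _ hx ?_
      rw [hw]
      rw [valuation_eq_exp_neg_ord w hx, WithZero.exp_lt_exp] at hu
      omega
  obtain ⟨c, hc, hcp⟩ := hpow (locF q₀ (embOf q₀ F γ⁻¹)) _ (mem_locF _ (u : F)) hsmall
  refine locNm_of_pow hχ γ ⟨c, hc, ?_⟩
  rw [hcp, embOf_inv_apply]
  rfl

end Fermat.Agent.S55.DIC.NB
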