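import Fermat.Agent.S55.DIC.NB.Split
import Fermat.Agent.S55.DIC.NB.Open

/-!
# S55-DIC / NB : (L-c) and the `LocalNorm` structure
-/

set_option autoImplicit false

open NumberField IsDedekindDomain
open Fermat.Agent.S55.LDB Fermat.Agent.S55.INEQ

namespace Fermat.Agent.S55.DIC.NB

variable {p : ℕ} [Fact p.Prime] {F : IntermediateField ℚ Qb} [NumberField F]
  {E' : IntermediateField F Qb} [NumberField E'] [IsGalois F E'] {χ : GQ → ZMod p}

/-- (L-c) `w = (q, γ)` nonsplit: the restricted character `ψ` is onto (`exists_char_ne_zero_of_nonsplit`,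
`exists_char_eq_one`), `LocIdxHyp` (with `K = locF q (embOf q F γ⁻¹)`, `K' = locF q (embE q E' γ)`,
`Setup.homOn_loc`, `Setup.ker_loc`) gives `b' ∈ Kˣ` which is not a norm; by density
(`exists_norm_div_sub_one_lt`, Dense1) there is `u ∈ Fˣ` with `b' / j u` within `δ` of `1`, hence a `p`-th power
in `K` (`exists_delta_pow`), hence a norm (`isNm_pow_of_fix`); so `j u` is not a norm (`IsNm.mul`). -/
theorem locNormGroup_ne_top (hidx : LocIdxHyp p) (S : Setup F E' χ)
    (w : HeightOneSpectrum (𝓞 F)) (hns : Nonsplit E' w) : locNormGroup S.hom w ≠ ⊤ := by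
  obtain ⟨q, hq, γ, hw⟩ := exists_place_rep w
  subst hw
  obtain ⟨h₀, hh₀, hne⟩ := exists_char_ne_zero_of_nonsplit S γ hns
  have hcomap := comap_locHom_fixingSubgroup (q := q) F γ
  have hψ := S.homOn_loc (q := q) γ
  have hsurj : ∃ σ ∈ (locF q (embOf q F γ⁻¹)).fixingSubgroup, χ (locHom q γ σ) = 1 :=
    exists_char_eq_one hψ ⟨h₀, hcomap ▸ hh₀, hne⟩
  obtain ⟨b', hb'fix, hb'not⟩ := hidx q (locF q (embOf q F γ⁻¹)) (locF q (embE q E' γ))
    inferInstance inferInstance (locF_embOf_le_locF_embE γ) (fun h => χ (locHom q γ h)) hψ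
    (S.ker_loc γ) hsurj
  -- `b'` lies in the local field
  have hb'K : (b' : PadicAlgCl q) ∈ locF q (embOf q F γ⁻¹) := by
    rw [← InfiniteGalois.fixedField_fixingSubgroup (locF q (embOf q F γ⁻¹)),
      IntermediateField.mem_fixedField_iff]
    intro g hg
    exact congrArg Units.val (hb'fix g hg)
  obtain ⟨δ, hδ, hpow⟩ := exists_delta_pow (q := q) p
  obtain ⟨u, hu0, hu⟩ := exists_norm_div_sub_one_lt (embOf q F γ⁻¹) hb'K b'.ne_zero hδ
  have hju0 : embOf q F γ⁻¹ u ≠ 0 := by
    intro h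
    exact hu0 ((embOf q F γ⁻¹).injective (by rw [h, map_zero]))
  obtain ⟨c, hcK, hc⟩ := hpow (locF q (embOf q F γ⁻¹)) _
    (div_mem hb'K (mem_locF (embOf q F γ⁻¹) u)) hu
  have hp : p.Prime := Fact.out
  have hc0 : c ≠ 0 := by
    rintro rfl
    rw [zero_pow hp.ne_zero] at hc
    exact (div_ne_zero b'.ne_zero hju0) hc.symm
  have hcfix : Fix (locF q (embOf q F γ⁻¹)).fixingSubgroup (Units.mk0 c hc0) := by
    intro g hg
    apply Units.ext
    exact (IntermediateField.mem_fixingSubgroup_iff _ g).mp hg c hcK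
  have hcNm : IsNm (locF q (embOf q F γ⁻¹)).fixingSubgroup (fun h => χ (locHom q γ h))
      ((Units.mk0 c hc0) ^ p) := isNm_pow_of_fix hsurj hcfix
  intro htop
  have hmem : Units.mk0 u hu0 ∈ locNormGroup S.hom (placeOf q (embOf q F γ⁻¹)) := by
    rw [htop]; exact Subgroup.mem_top _
  rcases (mem_locNormGroup S.hom _ _).mp hmem q γ rfl with h1 | h1
  · exact hne (h1 h₀ hh₀)
  · rw [hcomap] at h1
    apply hb'not
    have e : b' = (Units.mk0 c hc0) ^ p * locEmbU q γ (toQb F (Units.mk0 u hu0)) := by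
      apply Units.ext
      have e1 : ((locEmbU q γ (toQb F (Units.mk0 u hu0)) : (PadicAlgCl q)ˣ) : PadicAlgCl q) =
          embOf q F γ⁻¹ u := (embOf_inv_apply F γ u).symm
      rw [Units.val_mul, Units.val_pow_eq_pow_val, Units.val_mk0, e1, hc]
      field_simp
    rw [e]
    exact IsNm.mul hψ hcNm h1

/-- **the true local norm groups satisfy helper18's axioms.** -/
theorem localNorm_locNormGroup (hidx : LocIdxHyp p) (S : Setup F E' χ) :
    LocalNorm E' (locNormGroup S.hom) where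
  norm_mem := norm_mem_locNormGroup S
  isOpen := exists_princ_le_locNormGroup S.hom
  ne_top := locNormGroup_ne_top hidx S

end Fermat.Agent.S55.DIC.NB
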