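import Fermat.Agent.S55.DIC.NB.Group

/-!
# S55-DIC / NB : `Nonsplit E' w`  ↔  the restricted character is non trivial
-/

set_option autoImplicit false
set_option linter.unusedSectionVars false

open NumberField IsDedekindDomain
open Fermat.Agent.S55.LDB Fermat.Agent.S55.INEQ

namespace Fermat.Agent.S55.DIC.NB

variable {p : ℕ} [Fact p.Prime] {F : IntermediateField ℚ Qb} [NumberField F]
  {E' : IntermediateField F Qb} [NumberField E'] [IsGalois F E'] {χ : GQ → ZMod p}
variable {q : ℕ} [Fact q.Prime]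

/-- the place `placeOf q (embE q E' γ)` of `E'` lies above `placeOf q (embOf q F γ⁻¹)`. -/
theorem under_placeOf_embE (γ : GQ) :
    (placeOf q (embE q E' γ)).under (𝓞 F) = placeOf q (embOf q F γ⁻¹) := by
  apply HeightOneSpectrum.ext
  rw [placeOf_asIdeal, ← embE_comp_algebraMap (E' := E') γ, primeOf_comp_algebraMap]
  rfl

/-- all the conjugate places lie above the same place. -/
theorem split_under_placeOf_comp (γ : GQ) (g : E' ≃ₐ[F] E') :
    (placeOf q ((embE q E' γ).comp (g : E' →+* E'))).under (𝓞 F) =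
      placeOf q (embOf q F γ⁻¹) := by
  apply HeightOneSpectrum.ext
  have h : ((embE q E' γ).comp (g : E' →+* E')).comp (algebraMap F E') =
      (embE q E' γ).comp (algebraMap F E') := by
    ext x
    simp
  rw [placeOf_asIdeal, ← embE_comp_algebraMap (E' := E') γ, ← h, primeOf_comp_algebraMap]
  rfl

/-- `P₀ = placeOf q (embE q E' γ)`; all `placeOf q (embE ∘ g')` lie above `w`, so they are equal to `P₀`,
so `decompHom` is onto (`mem_range_decompHom_iff`); take a preimage of `σ|E'`, `χ σ = 1`. -/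
theorem exists_char_ne_zero_of_nonsplit (S : Setup F E' χ) (γ : GQ)
    (hns : Nonsplit E' (placeOf q (embOf q F γ⁻¹))) :
    ∃ h ∈ F.fixingSubgroup.comap (locHom q γ), χ (locHom q γ h) ≠ 0 := by
  obtain ⟨σ, hσ, hσ1⟩ := S.surj
  obtain ⟨g', hg'⟩ := exists_restrict (E' := E') σ hσ
  have hmem : g' ∈ (decompHom (embE q E' γ)).range := by
    rw [mem_range_decompHom_iff]
    exact hns _ _ (split_under_placeOf_comp γ g') (under_placeOf_embE γ)
  obtain ⟨τ, hτ⟩ := hmem
  have hτmem : (τ : Gq q) ∈ F.fixingSubgroup.comap (locHom q γ) := by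
    rw [comap_locHom_fixingSubgroup, ← embE_comp_algebraMap (E' := E') γ]
    exact τ.2
  refine ⟨τ, hτmem, fun h0 => ?_⟩
  have h1 := (S.ker _ hτmem).1 h0
  have h2 : χ σ = 0 := by
    rw [S.ker σ hσ]
    intro x hx
    rw [← hg' ⟨x, hx⟩, ← hτ, coe_decompHom_embE]
    exact h1 x hx
  rw [hσ1] at h2
  exact one_ne_zero h2

/-- converse: `decompHom h ≠ 1` generates `Gal(E'/F)` (order `p`), so the decomposition group is
everything, and `Gal(E'/F)` is transitive on the places above `w` (`exists_gal_placeOf_eq`). -/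
theorem nonsplit_of_exists_char_ne_zero (S : Setup F E' χ) (γ : GQ)
    (h : ∃ h ∈ F.fixingSubgroup.comap (locHom q γ), χ (locHom q γ h) ≠ 0) :
    Nonsplit E' (placeOf q (embOf q F γ⁻¹)) := by
  obtain ⟨h, hh, hχ⟩ := h
  have hfd : FiniteDimensional F E' := FiniteDimensional.right ℚ F E'
  have hh' : h ∈ (locF q ((embE q E' γ).comp (algebraMap F E'))).fixingSubgroup := by
    rw [embE_comp_algebraMap, ← comap_locHom_fixingSubgroup]
    exact hh
  have hne : decompHom (embE q E' γ) ⟨h, hh'⟩ ≠ 1 := by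
    intro h1
    apply hχ
    rw [S.ker _ hh]
    intro x hx
    have := coe_decompHom_embE γ ⟨h, hh'⟩ (⟨x, hx⟩ : E')
    rw [h1] at this
    exact this.symm
  have hcard : Nat.card (E' ≃ₐ[F] E') = p := by
    rw [IsGalois.card_aut_eq_finrank, S.finrank_eq]
  have htop : (decompHom (F := F) (embE q E' γ)).range = ⊤ := by
    have : Fact (Nat.card (E' ≃ₐ[F] E')).Prime := ⟨hcard ▸ Fact.out⟩
    rcases Subgroup.eq_bot_or_eq_top_of_prime_card (decompHom (F := F) (embE q E' γ)).range
      with hb | ht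
    · exfalso
      apply hne
      have : decompHom (embE q E' γ) ⟨h, hh'⟩ ∈ (decompHom (F := F) (embE q E' γ)).range :=
        ⟨_, rfl⟩
      rw [hb] at this
      exact this
    · exact ht
  have key : ∀ P : HeightOneSpectrum (𝓞 E'), P.under (𝓞 F) = placeOf q (embOf q F γ⁻¹) →
      P = placeOf q (embE q E' γ) := by
    intro P hP
    have hP' : P.asIdeal.comap (algebraMap (𝓞 F) (𝓞 E')) =
        primeOf q ((embE q E' γ).comp (algebraMap F E')) := by
      rw [embE_comp_algebraMap]
      exact congrArg HeightOneSpectrum.asIdeal hP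
    obtain ⟨g, hg⟩ := exists_gal_placeOf_eq (embE q E' γ) P hP'
    rw [← hg]
    rw [← mem_range_decompHom_iff, htop]
    exact Subgroup.mem_top g
  intro P Q hP hQ
  rw [key P hP, key Q hQ]

end Fermat.Agent.S55.DIC.NB
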